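import Fermat.Agent.S27.B.FibreNear

/-! # S27 / B / Fibre  (TASKS S27/B2*): local structure of the fibres of `f : X → ℙ¹`; compactness; connectedness.

* B2a `fibre_structure`.  Let `P₁..P_m` be the zeros of `f`, `e_i = ord_{P_i} f`, `∑ e_i = n = [F:ℂ(f)]` (`sum_ord_zeros`).  In the chart `c P_i` the function
  `s ↦ val (pt s) f` has a zero of order `e_i` at `0` (`Chart.order`), so by `exists_finset_card_eq_order` it takes every small `w ≠ 0` at `≥ e_i`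
  distinct points of `ball 0 (ρ P_i)`.  After shrinking, the chart images are pairwise disjoint (`Chart.exists_disjoint`) and `f` is regular on them.  This
  gives `n` distinct zeros of `f - w`; as `∑_{Q ∈ zeros (f - w)} ord_Q (f - w) = [F:ℂ(f-w)] = n`, these are all the zeros and they are simple.
* B2b `exists_finite_cover`: apply B2a to `x - λ₀` (`λ₀ ∈ ℂ`) and to `x⁻¹` with `ρ = r/2`; compactness of `closedBall 0 R ⊆ ℂ`.
* B2c `connected_places`: take `P₀ ∈ b` and `f` with a pole only at `P₀` (`exists_pole_only`).  `n_b(λ) := ∑_{Q ∈ zeros (f - λ), Q ∈ b} ord_Q (f-λ)` is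
  locally constant on `ℂ` by B2a, hence constant; B2a for `f⁻¹` (only zero `P₀ ∈ b`) shows `n_b(λ) = n` for `|λ|` large.  So all zeros of all `f - λ` are in `b`. -/

set_option autoImplicit false

namespace Fermat.Agent.S27

open AlgebraicCurve Fermat.Agent.S26 IntermediateField

variable {F : Type*} [Field F] [Algebra ℂ F] [FF1 ℂ F]

/-- Local structure of the fibres of `f` near the fibre over `0`. -/
theorem fibre_structure {f : F} (hf : Transcendental ℂ f) (c : Place ℂ F → Chart F)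
    (hc : ∀ P ∈ zeros ℂ f, (c P).pt 0 = P) (ρ : Place ℂ F → ℝ)
    (hρ : ∀ P ∈ zeros ℂ f, 0 < ρ P ∧ ρ P ≤ (c P).r) :
    ∃ ε > 0, ∀ w : ℂ, w ≠ 0 → ‖w‖ < ε →
      ∃ S : Place ℂ F → Finset ℂ,
        (∀ P ∈ zeros ℂ f, ((S P).card : ℤ) = P.ord f ∧ ∀ τ ∈ S P, ‖τ‖ < ρ P) ∧
        (∀ Q : Place ℂ F, Q ∈ zeros ℂ (f - algebraMap ℂ F w) ↔
          ∃ P ∈ zeros ℂ f, ∃ τ ∈ S P, Q = (c P).pt τ) ∧
        (∀ P ∈ zeros ℂ f, ∀ P' ∈ zeros ℂ f, ∀ τ ∈ S P, ∀ τ' ∈ S P',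
          (c P).pt τ = (c P').pt τ' → P = P' ∧ τ = τ') ∧
        (∀ Q ∈ zeros ℂ (f - algebraMap ℂ F w), Q.ord (f - algebraMap ℂ F w) = 1) :=
  fibre_structure' hf c hc ρ hρ

theorem exists_chart_at (P : Place ℂ F) : ∃ c : Chart F, c.pt 0 = P := by
  obtain ⟨c, _, h⟩ := exists_chart P (unif P) (ord_unif P)
  exact ⟨c, h⟩

theorem norm_inv_lt_of_lt {ε : ℝ} (hε : 0 < ε) {l : ℂ} (hl : 2 / ε < ‖l‖) : l ≠ 0 ∧ ‖l⁻¹ - 0‖ < ε := by
  have h0 : 0 < 2 / ε := by positivity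
  have hl0 : 0 < ‖l‖ := h0.trans hl
  refine ⟨norm_pos_iff.mp hl0, ?_⟩
  rw [sub_zero, norm_inv, inv_lt_comm₀ hl0 hε]
  have : ε⁻¹ < 2 / ε := by
    rw [div_eq_mul_inv]
    have : 0 < ε⁻¹ := by positivity
    linarith
  exact this.trans hl

variable (F) in
/-- Compactness: finitely many "closed half charts" cover all places. -/
theorem exists_finite_cover :
    ∃ (N : ℕ) (c : Fin N → Chart F) (ρ : Fin N → ℝ), (∀ k, 0 < ρ k ∧ ρ k < (c k).r) ∧
      ∀ Q : Place ℂ F, ∃ k τ, ‖τ‖ ≤ ρ k ∧ Q = (c k).pt τ := by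
  classical
  obtain ⟨x, hx⟩ := exists_transcendental ℂ F
  choose c hc using fun P : Place ℂ F => exists_chart_at P
  set ρ : Place ℂ F → ℝ := fun P => (c P).r / 2 with hρdef
  have hρ : ∀ P, 0 < ρ P ∧ ρ P ≤ (c P).r := fun P =>
    ⟨half_pos (c P).r_pos, (half_lt_self (c P).r_pos).le⟩
  obtain ⟨εi, hεi, hi⟩ := fibre_near (Fermat.Agent.S24.FF.transcendental_inv ℂ hx) c hc ρ hρ 0
  choose ε hε h using fun l₀ : ℂ => fibre_near hx c hc ρ hρ l₀
  obtain ⟨t, -, ht⟩ := (isCompact_closedBall (0 : ℂ) (2 / εi)).elim_nhds_subcover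
    (fun l => Metric.ball l (ε l)) (fun l _ => Metric.ball_mem_nhds l (hε l))
  set PP : Finset (Place ℂ F) := zeros ℂ (x⁻¹ - algebraMap ℂ F 0) ∪
    t.biUnion (fun l => zeros ℂ (x - algebraMap ℂ F l)) with hPP
  have key : ∀ Q : Place ℂ F, ∃ P ∈ PP, ∃ τ : ℂ, ‖τ‖ < ρ P ∧ Q = (c P).pt τ := by
    intro Q
    rcases lt_or_ge (Q.ord x) 0 with hQ | hQ
    · refine ⟨Q, Finset.mem_union_left _ ?_, 0, by simpa using (hρ Q).1, (hc Q).symm⟩
      rw [mem_zeros, map_zero, sub_zero, Place.ord_inv]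
      omega
    · have hQz := mem_zeros_sub_val hx hQ
      set l := val Q x with hl
      rcases le_or_gt ‖l‖ (2 / εi) with hle | hgt
      · have hmem : l ∈ Metric.closedBall (0 : ℂ) (2 / εi) := by simpa using hle
        obtain ⟨l₀, hl₀, hlb⟩ := Set.mem_iUnion₂.mp (ht hmem)
        obtain ⟨P, hP, τ, hτ, hQP⟩ := (h l₀ l (by simpa [dist_eq_norm] using hlb)).1 Q hQz
        exact ⟨P, Finset.mem_union_right _ (Finset.mem_biUnion.mpr ⟨l₀, hl₀, hP⟩), τ, hτ, hQP⟩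
      · obtain ⟨hl0, hlt⟩ := norm_inv_lt_of_lt hεi hgt
        obtain ⟨P, hP, τ, hτ, hQP⟩ := (hi l⁻¹ hlt).1 Q (mem_zeros_inv_sub hx hl0 hQz)
        exact ⟨P, Finset.mem_union_left _ hP, τ, hτ, hQP⟩
  refine ⟨PP.card, fun k => c (PP.equivFin.symm k), fun k => ρ (PP.equivFin.symm k),
    fun k => ⟨(hρ _).1, half_lt_self (c _).r_pos⟩, fun Q => ?_⟩
  obtain ⟨P, hP, τ, hτ, hQP⟩ := key Q
  refine ⟨PP.equivFin ⟨P, hP⟩, τ, ?_, ?_⟩
  · simpa using hτ.le
  · simpa using hQP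

/-- Connectedness: a nonempty set of places which is a union of chart images and whose complement is too, is everything. -/
theorem connected_places (b : Set (Place ℂ F))
    (hb : ∀ c : Chart F, ∀ τ ∈ Metric.ball (0 : ℂ) c.r, (c.pt τ ∈ b ↔ c.pt 0 ∈ b))
    (hne : b.Nonempty) : b = Set.univ := by
  classical
  obtain ⟨P₀, hP₀⟩ := hne
  obtain ⟨f, hf, hpole, hreg⟩ := exists_pole_only P₀
  choose c hc using fun P : Place ℂ F => exists_chart_at P
  set ρ : Place ℂ F → ℝ := fun P => (c P).r with hρdef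
  have hρ : ∀ P, 0 < ρ P ∧ ρ P ≤ (c P).r := fun P => ⟨(c P).r_pos, le_rfl⟩
  have hsat : ∀ P τ, ‖τ‖ < ρ P → ((c P).pt τ ∈ b ↔ P ∈ b) := fun P τ h => by
    rw [hb (c P) τ (by simpa using h), hc P]
  set U : ℂ → Prop := fun l => ∀ Q ∈ zeros ℂ (f - algebraMap ℂ F l), Q ∈ b with hU
  have hloc : IsLocallyConstant U := by
    rw [IsLocallyConstant.iff_eventually_eq]
    intro l₀
    obtain ⟨ε, hε, h⟩ := fibre_near hf c hc ρ hρ l₀
    filter_upwards [Metric.ball_mem_nhds l₀ hε] with l hl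
    obtain ⟨h1, h2⟩ := h l (by simpa [dist_eq_norm] using hl)
    apply propext
    constructor
    · intro hUl P hP
      obtain ⟨τ, hτ, hmem⟩ := h2 P hP
      exact (hsat P τ hτ).mp (hUl _ hmem)
    · intro hUl Q hQ
      obtain ⟨P, hP, τ, hτ, rfl⟩ := h1 Q hQ
      exact (hsat P τ hτ).mpr (hUl P hP)
  have hlarge : ∃ l, U l := by
    obtain ⟨ε, hε, h⟩ := fibre_near (Fermat.Agent.S24.FF.transcendental_inv ℂ hf) c hc ρ hρ 0
    refine ⟨((2 / ε + 1 : ℝ) : ℂ), fun Q hQ => ?_⟩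
    have hgt : 2 / ε < ‖((2 / ε + 1 : ℝ) : ℂ)‖ := by
      rw [Complex.norm_real, Real.norm_eq_abs, abs_of_pos (by positivity)]
      linarith
    obtain ⟨hl0, hlt⟩ := norm_inv_lt_of_lt hε hgt
    obtain ⟨P, hP, τ, hτ, rfl⟩ := (h _ hlt).1 Q (mem_zeros_inv_sub hf hl0 hQ)
    have hPP : P = P₀ := by
      by_contra hne
      have h1 := hreg P hne
      have h2 := mem_zeros.mp hP
      rw [map_zero, sub_zero, Place.ord_inv] at h2
      omega
    rw [hsat P τ hτ, hPP]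
    exact hP₀
  obtain ⟨l₁, hl₁⟩ := hlarge
  have hall : ∀ l, U l := fun l => by
    rw [hloc.apply_eq_of_preconnectedSpace l l₁]; exact hl₁
  ext Q
  simp only [Set.mem_univ, iff_true]
  by_cases hQ : Q = P₀
  · rw [hQ]; exact hP₀
  · exact hall _ Q (mem_zeros_sub_val hf (hreg Q hQ))

end Fermat.Agent.S27
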