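import Fermat.Agent.S27.B.Exp
import Fermat.Agent.S27.B.Fibre
import Fermat.Agent.S27.Gen.LatticeCount

/-! # S27 / B / Main  (TASK S27/B5): the complex case.

`g = 0`: `Pic⁰ = 0` by `isPrincipal_of_genus_zero`.
`g > 0`: let `φ` be as in `exists_exp`, `P₀` a place.
* `b := {Q | pq Q P₀ ∈ range φ}` satisfies the hypothesis of `connected_places` (chart formula + `pq_add_pq`), `P₀ ∈ b`; so `b = univ`: choose `a Q` with `φ (a Q) = pq Q P₀`.
* bounded fundamental set: `exists_finite_cover` gives `c k`, `ρ k`; `Q = (c k).pt τ`, `‖τ‖ ≤ ρ k`: `pq Q P₀ = φ ((c k).abel B τ + a ((c k).pt 0))`, and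
  `(c k).abel B` is bounded on the compact `closedBall 0 (ρ k)` (`Chart.abel_continuousOn`).  With `exists_eq_sum_pq` every `z : Pic⁰` is `φ` of a sum of `g` such vectors.
* `card_torsion_of_exp` with `E = Fin g → ℂ`, `finrank ℝ E = 2 g`;  `Pic0.torsion ℂ F n = {z | (n:ℤ) • z = 0}` (`Pic0.mem_torsion`). -/

set_option autoImplicit false

namespace Fermat.Agent.S27

open AlgebraicCurve Fermat.Agent.S26

theorem card_torsion_complex (F : Type*) [Field F] [Algebra ℂ F] [FF1 ℂ F] (n : ℕ) (hn : 0 < n) :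
    Nat.card (Pic0.torsion ℂ F n) = n ^ (2 * genusFF ℂ F) := by
  classical
  rcases Nat.eq_zero_or_pos (genusFF ℂ F) with hg | hg
  · -- `Pic⁰` is trivial
    have htriv : ∀ z : Pic0 ℂ F, z = 0 := by
      intro z
      obtain ⟨D, rfl⟩ := Pic0.mk_surjective z
      have h := isPrincipal_of_genus_zero hg D.1 D.2
      exact (QuotientAddGroup.eq_zero_iff D).mpr (AddSubgroup.mem_addSubgroupOf.mpr h)
    have : Subsingleton (Pic0.torsion ℂ F n) :=
      ⟨fun x y => Subtype.ext ((htriv x.1).trans (htriv y.1).symm)⟩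
    rw [hg, mul_zero, pow_zero]
    exact Nat.card_unique
  · obtain ⟨B⟩ := exists_holBasis F
    obtain ⟨φ, hdisc, hchart⟩ := exists_exp hg B
    obtain ⟨P₀⟩ : Nonempty (Place ℂ F) := (infinite_place (K := ℂ) (F := F)).nonempty
    -- every `pq Q P₀` is in the range of `φ`
    have hb : {Q : Place ℂ F | pq Q P₀ ∈ Set.range φ} = Set.univ := by
      refine connected_places _ (fun c τ hτ => ?_) ⟨P₀, 0, by simp⟩
      have h1 : pq (c.pt τ) P₀ = φ (c.abel B τ) + pq (c.pt 0) P₀ := by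
        rw [hchart c τ hτ, pq_add_pq]
      constructor
      · rintro ⟨v, hv⟩
        refine ⟨v - c.abel B τ, ?_⟩
        rw [map_sub, hv, h1]
        abel
      · rintro ⟨v, hv⟩
        refine ⟨c.abel B τ + v, ?_⟩
        rw [map_add, hv, h1]
    have ha : ∀ Q : Place ℂ F, ∃ v, φ v = pq Q P₀ := by
      intro Q
      have : Q ∈ {Q : Place ℂ F | pq Q P₀ ∈ Set.range φ} := by rw [hb]; trivial
      exact this
    choose a ha using ha
    obtain ⟨N, c, ρ, hρ, hcover⟩ := exists_finite_cover F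
    -- boundedness on the closed half charts
    have hbd : ∀ k, ∃ C : ℝ, ∀ τ : ℂ, ‖τ‖ ≤ ρ k → ‖(c k).abel B τ‖ ≤ C := by
      intro k
      have hcont : ContinuousOn ((c k).abel B) (Metric.closedBall 0 (ρ k)) :=
        ((c k).abel_continuousOn B).mono (Metric.closedBall_subset_ball (hρ k).2)
      obtain ⟨C, hC⟩ := (isCompact_closedBall (0 : ℂ) (ρ k)).exists_bound_of_continuousOn hcont
      exact ⟨C, fun τ hτ => hC τ (by simpa using hτ)⟩
    choose C hC using hbd
    set C' : ℝ := ∑ k, (|C k| + ‖a ((c k).pt 0)‖) with hC'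
    have hone : ∀ Q : Place ℂ F, ∃ v, ‖v‖ ≤ C' ∧ φ v = pq Q P₀ := by
      intro Q
      obtain ⟨k, τ, hτ, rfl⟩ := hcover Q
      have hτ' : τ ∈ Metric.ball (0 : ℂ) (c k).r := by
        simpa using lt_of_le_of_lt hτ (hρ k).2
      refine ⟨(c k).abel B τ + a ((c k).pt 0), ?_, ?_⟩
      · have h1 : ‖(c k).abel B τ + a ((c k).pt 0)‖ ≤ |C k| + ‖a ((c k).pt 0)‖ :=
          (norm_add_le _ _).trans
            (add_le_add_left ((hC k τ hτ).trans (le_abs_self _)) _)
        refine h1.trans ?_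
        exact Finset.single_le_sum (f := fun k => |C k| + ‖a ((c k).pt 0)‖)
          (fun i _ => by positivity) (Finset.mem_univ k)
      · rw [map_add, hchart (c k) τ hτ', ha, pq_add_pq]
    choose w hw using hone
    have hbdd : ∃ C : ℝ, ∀ x : Pic0 ℂ F, ∃ v : Fin (genusFF ℂ F) → ℂ, ‖v‖ ≤ C ∧ φ v = x := by
      refine ⟨∑ _i : Fin (genusFF ℂ F), C', fun z => ?_⟩
      obtain ⟨Q, rfl⟩ := exists_eq_sum_pq P₀ z
      refine ⟨∑ i, w (Q i), ?_, ?_⟩
      · exact (norm_sum_le _ _).trans (Finset.sum_le_sum fun i _ => (hw (Q i)).1)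
      · rw [map_sum]
        exact Finset.sum_congr rfl fun i _ => (hw (Q i)).2
    have hcard := card_torsion_of_exp φ hdisc hbdd n hn
    have hfr : Module.finrank ℝ (Fin (genusFF ℂ F) → ℂ) = 2 * genusFF ℂ F := by
      rw [Module.finrank_pi_fintype]
      simp [Complex.finrank_real_complex, mul_comm]
    rw [hfr] at hcard
    rw [← hcard]
    exact Nat.card_congr (Equiv.subtypeEquivRight fun x => Pic0.mem_torsion)

end Fermat.Agent.S27
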