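import Fermat.Agent.S27.B.Chart
import Fermat.Agent.S27.A.Generic
import Fermat.Agent.S27.Gen.LemmaM

/-! # S27 / B / Abel  (TASKS S27/B3*): holomorphic differentials in charts, local Abel map, the TRIPLE LEMMA.

* B3a: API of `Chart.form`, `Chart.prim`, `Chart.abel`, `pq`, `exists_holBasis`.
* B3b: `abel_local_surj` (inverse function theorem: the derivative of `s ↦ ∑ i, (c i).abel B (s i)` at `0` is the matrix
  `((c i).form x (ω j) 0)_{j i}`, invertible by `eq_zero_of_val_eq_zero_of_isGood` + `dim Ω(0) = g`;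
  `HasStrictFDerivAt.map_nhds_eq_of_equiv` / `ContDiffAt.toOpenPartialHomeomorph`).
* B3c: **`triple_lemma`**: apply `lemmaM` with `I = Fin g ⊕ Fin g`, `J = Fin g`, points `Q = ` the `3g` centres.
  - `b₀` from `exists_section_simple_zeros` (`3g ≥ 2g`), `D∞ := ∑ Q - div b₀ ≥ 0`, disjoint from the centres, `deg D∞ = 3g`;
    `V = L(D∞)`, `dim V = 2g + 1` (`finrank_LSpace_of_degree`; if `g = 0` everything is trivial), basis `β_m`, `M = Fin (2g+1)`;
    `β q m s := val ((c q).pt s) (β_m)`; shrink the radius so that the chart images avoid `supp D∞` and are pairwise disjoint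
    (`Chart.exists_avoid`, `Chart.exists_disjoint`): then all `β_m` are regular along the charts; `deriv` by `Chart.hasDerivAt`.
  - (a): `b₀` has simple zeros at the centres (`val_dd_ne_zero_iff`).
  - (b): `h ∈ V` vanishing at the first `2g` centres: `h / b₀ ∈ L(∑_{q ∈ J} Q q)`, which is `ℂ` (`mem_range_of_mem_LSpace_of_isGood`).
  - (c): `b ∈ V`, `b ≠ 0` vanishing at the `3g` distinct places `(c q).pt (s q)` has divisor `∑ pt - D∞` (`divisorOf_eq_of_mem_LSpace`), so for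
    `h ∈ V`, `ω ∈ Ω(0)`: `(h/b) ω dx` has at most simple poles at these places and no other pole; `sum_residues_simple`; the residue at
    `pt (s q)` w.r.t. the uniformizer `t_q - s q` is `h(pt) / (db/dt_q)(pt) * (ω dx/dt_q)(pt)`.
  - (d): goodness of the third tuple.
  - conclusion: `b ≠ 0` in `V` vanishing at all `(c q).pt (s q)`: `div b - div b₀ = ∑ pt (s q) - ∑ pt 0`. -/

set_option autoImplicit false

namespace Fermat.Agent.S27

open AlgebraicCurve Fermat.Agent.S26 IntermediateField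

variable {F : Type*} [Field F] [Algebra ℂ F] [FF1 ℂ F]

/-- A separating variable together with a basis of the holomorphic differentials `ω j dx`. -/
structure HolBasis (F : Type*) [Field F] [Algebra ℂ F] where
  x : F
  hx : Transcendental ℂ x
  ω : Fin (genusFF ℂ F) → F
  mem : ∀ j, ω j ∈ Omega x (0 : Divisor ℂ F)
  li : LinearIndependent ℂ ω

variable (F) in
theorem exists_holBasis : Nonempty (HolBasis F) := by
  obtain ⟨x, hx⟩ := exists_transcendental (K := ℂ) (F := F)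
  have hfin : Module.finrank ℂ (Omega x (0 : Divisor ℂ F)) = genusFF ℂ F := finrank_Omega_zero hx
  let b := Module.finBasisOfFinrankEq ℂ (Omega x (0 : Divisor ℂ F)) hfin
  exact ⟨⟨x, hx, fun j => (b j : F), fun j => (b j).2,
    b.linearIndependent.map' (Submodule.subtype _) (Submodule.ker_subtype _)⟩⟩

theorem HolBasis.span_eq (B : HolBasis F) : Submodule.span ℂ (Set.range B.ω) = Omega B.x 0 := by
  apply Submodule.eq_of_le_of_finrank_eq
  · rw [Submodule.span_le]
    rintro _ ⟨j, rfl⟩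
    exact B.mem j
  · rw [finrank_span_eq_card B.li, Fintype.card_fin, finrank_Omega_zero B.hx]

namespace Chart

/-- the differential `ω dx` read in the chart: `ω dx = form(τ) dτ`. -/
noncomputable def form (c : Chart F) (x ω : F) (τ : ℂ) : ℂ := val (c.pt τ) (ω * dd (K := ℂ) c.t x)

/-- the primitive of `form` vanishing at the centre. -/
noncomputable def prim (c : Chart F) (x ω : F) (τ : ℂ) : ℂ := Complex.wedgeIntegral 0 τ (c.form x ω)

/-- the local Abel map `τ ↦ (∫_0^τ ω_j)_j`. -/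
noncomputable def abel (c : Chart F) (B : HolBasis F) (τ : ℂ) : Fin (genusFF ℂ F) → ℂ :=
  fun j => c.prim B.x (B.ω j) τ

variable (c : Chart F)

/-- a holomorphic differential is regular along the chart -/
theorem ordGE_form {x ω : F} (hx : Transcendental ℂ x) (hω : ω ∈ Omega x (0 : Divisor ℂ F))
    {τ : ℂ} (hτ : τ ∈ Metric.ball (0 : ℂ) c.r) : OrdGE (c.pt τ) 0 (ω * dd (K := ℂ) c.t x) := by
  have h := ordGE_of_mem_Omega hx hω (c.ord_t τ hτ)
  rwa [dd_sub_algebraMap, Finsupp.coe_zero, Pi.zero_apply] at h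

theorem form_analytic {x ω : F} (hx : Transcendental ℂ x) (hω : ω ∈ Omega x (0 : Divisor ℂ F)) :
    AnalyticOnNhd ℂ (c.form x ω) (Metric.ball 0 c.r) :=
  fun τ hτ => c.analytic _ τ hτ (c.ordGE_form hx hω hτ)

theorem prim_hasDerivAt {x ω : F} (hx : Transcendental ℂ x) (hω : ω ∈ Omega x (0 : Divisor ℂ F))
    {τ : ℂ} (hτ : τ ∈ Metric.ball (0 : ℂ) c.r) : HasDerivAt (c.prim x ω) (c.form x ω τ) τ := by
  have hd : DifferentiableOn ℂ (c.form x ω) (Metric.ball 0 c.r) :=
    (c.form_analytic hx hω).differentiableOn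
  exact hd.isConservativeOn.hasDerivAt_wedgeIntegral hd.continuousOn hτ

@[simp] theorem prim_zero (x ω : F) : c.prim x ω 0 = 0 := by
  simp [prim, Complex.wedgeIntegral]

@[simp] theorem abel_zero (B : HolBasis F) : c.abel B 0 = 0 := by
  funext j
  simp [abel]

theorem abel_continuousOn (B : HolBasis F) : ContinuousOn (c.abel B) (Metric.ball 0 c.r) := by
  intro τ hτ
  refine ContinuousAt.continuousWithinAt ?_
  rw [continuousAt_pi]
  exact fun j => (c.prim_hasDerivAt B.hx (B.mem j) hτ).continuousAt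

theorem form_shift (x ω : F) {τ₁ : ℂ} (h : τ₁ ∈ Metric.ball (0 : ℂ) c.r) (s : ℂ) :
    (c.shift τ₁ h).form x ω s = c.form x ω (τ₁ + s) := by
  change val (c.pt (τ₁ + s)) (ω * dd (K := ℂ) (c.t - algebraMap ℂ F τ₁) x) = _
  rw [dd_sub_algebraMap]
  rfl

theorem prim_shift {x ω : F} (hx : Transcendental ℂ x) (hω : ω ∈ Omega x (0 : Divisor ℂ F))
    {τ₁ : ℂ} (h : τ₁ ∈ Metric.ball (0 : ℂ) c.r) {s : ℂ}
    (hs : ‖s‖ < c.r - ‖τ₁‖) :
    (c.shift τ₁ h).prim x ω s = c.prim x ω (τ₁ + s) - c.prim x ω τ₁ := by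
  have hr : (c.shift τ₁ h).r = c.r - ‖τ₁‖ := rfl
  have h1 : ∀ σ ∈ Metric.ball (0 : ℂ) (c.r - ‖τ₁‖),
      HasDerivAt ((c.shift τ₁ h).prim x ω) (c.form x ω (τ₁ + σ)) σ := by
    intro σ hσ
    rw [← c.form_shift x ω h σ]
    exact (c.shift τ₁ h).prim_hasDerivAt hx hω (hr ▸ hσ)
  have h2 : ∀ σ ∈ Metric.ball (0 : ℂ) (c.r - ‖τ₁‖),
      HasDerivAt (fun σ => c.prim x ω (τ₁ + σ) - c.prim x ω τ₁) (c.form x ω (τ₁ + σ)) σ := by
    intro σ hσ
    exact ((c.prim_hasDerivAt hx hω (c.add_mem_ball hσ)).comp_const_add τ₁ σ).sub_const _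
  have h0 : (0 : ℂ) ∈ Metric.ball (0 : ℂ) (c.r - ‖τ₁‖) :=
    Metric.mem_ball_self (by simpa using h)
  have key := Metric.isOpen_ball.eqOn_of_deriv_eq (convex_ball (0 : ℂ) (c.r - ‖τ₁‖)).isPreconnected
    (fun σ hσ => (h1 σ hσ).differentiableAt.differentiableWithinAt)
    (fun σ hσ => (h2 σ hσ).differentiableAt.differentiableWithinAt)
    (fun σ hσ => by rw [(h1 σ hσ).deriv, (h2 σ hσ).deriv]) h0 (by simp)
  exact key (by simpa using hs)

theorem abel_shift (B : HolBasis F) {τ₁ : ℂ} (h : τ₁ ∈ Metric.ball (0 : ℂ) c.r) {s : ℂ}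
    (hs : ‖s‖ < c.r - ‖τ₁‖) : (c.shift τ₁ h).abel B s = c.abel B (τ₁ + s) - c.abel B τ₁ := by
  funext j
  exact c.prim_shift B.hx (B.mem j) h hs

theorem abel_shrink (B : HolBasis F) (r' : ℝ) (h0 : 0 < r') (h : r' ≤ c.r) :
    (c.shrink r' h0 h).abel B = c.abel B := rfl

end Chart

/-- the class `[P - Q] ∈ Pic⁰`. -/
noncomputable def pq (P Q : Place ℂ F) : Pic0 ℂ F :=
  Pic0.mk ⟨Finsupp.single P 1 - Finsupp.single Q 1, by
    rw [Divisor.mem_degZero, map_sub, Divisor.degree_single, Divisor.degree_single, deg_eq_one,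
      deg_eq_one]; simp⟩

omit [FF1 ℂ F] in
theorem Abel.mk_eq_zero_iff (D : Divisor.degZero (K := ℂ) (F := F)) :
    Pic0.mk D = 0 ↔ Divisor.IsPrincipal (D : Divisor ℂ F) := by
  rw [Pic0.mk, QuotientAddGroup.eq_zero_iff, AddSubgroup.mem_addSubgroupOf, Divisor.mem_principal]

omit [FF1 ℂ F] in
theorem Abel.mk_eq_mk_iff (D E : Divisor.degZero (K := ℂ) (F := F)) :
    Pic0.mk D = Pic0.mk E ↔ Divisor.IsPrincipal ((D : Divisor ℂ F) - (E : Divisor ℂ F)) := by
  have h : Pic0.mk D - Pic0.mk E = Pic0.mk (D - E) := rfl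
  rw [← sub_eq_zero, h, Abel.mk_eq_zero_iff]
  rfl

omit [FF1 ℂ F] in
theorem Abel.mk_congr {D E : Divisor.degZero (K := ℂ) (F := F)}
    (h : (D : Divisor ℂ F) = E) : Pic0.mk D = Pic0.mk E := by
  rw [Subtype.ext h]

theorem Abel.degree_sumDiv_sub {ι : Type*} [Fintype ι] (P Q : ι → Place ℂ F) :
    sumDiv P - sumDiv Q ∈ Divisor.degZero (K := ℂ) (F := F) := by
  rw [Divisor.mem_degZero, map_sub, degree_sumDiv, degree_sumDiv, sub_self]

theorem Abel.sum_pq {ι : Type*} [Fintype ι] (P Q : ι → Place ℂ F) :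
    ∑ i, pq (P i) (Q i) = Pic0.mk ⟨sumDiv P - sumDiv Q, Abel.degree_sumDiv_sub P Q⟩ := by
  have h : ∀ (s : Finset ι) (d : ι → Divisor.degZero (K := ℂ) (F := F)),
      ∑ i ∈ s, Pic0.mk (d i) = Pic0.mk (∑ i ∈ s, d i) := by
    intro s d
    exact (map_sum (QuotientAddGroup.mk' ((Divisor.principal (K := ℂ) (F := F)).addSubgroupOf
      (Divisor.degZero (K := ℂ) (F := F)))) d s).symm
  unfold pq
  rw [h]
  apply Abel.mk_congr
  rw [AddSubgroup.val_finsetSum]
  simp only [sumDiv, Finset.sum_sub_distrib]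

@[simp] theorem pq_self (P : Place ℂ F) : pq P P = 0 := by
  rw [pq, Abel.mk_eq_zero_iff]
  simp only [sub_self]
  exact (Divisor.principal (K := ℂ) (F := F)).zero_mem

theorem pq_add_pq (P Q R : Place ℂ F) : pq P Q + pq Q R = pq P R := by
  unfold pq
  rw [← Pic0.mk_add]
  apply Abel.mk_congr
  exact sub_add_sub_cancel _ _ _

/-- criterion for a sum of `pq`'s to vanish -/
theorem sum_pq_eq_zero_iff {ι : Type*} [Fintype ι] (P Q : ι → Place ℂ F) :
    ∑ i, pq (P i) (Q i) = 0 ↔ Divisor.IsPrincipal (sumDiv P - sumDiv Q) := by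
  rw [Abel.sum_pq, Abel.mk_eq_zero_iff]

/-- `Pic⁰` is generated by the `pq`; more precisely (`exists_effective_rep`): -/
theorem exists_eq_sum_pq (P₀ : Place ℂ F) (z : Pic0 ℂ F) :
    ∃ Q : Fin (genusFF ℂ F) → Place ℂ F, z = ∑ i, pq (Q i) P₀ := by
  obtain ⟨D, rfl⟩ := Pic0.mk_surjective z
  obtain ⟨Q, f, hf, hQ⟩ := exists_effective_rep (D : Divisor ℂ F) D.2 P₀
  refine ⟨Q, ?_⟩
  rw [Abel.sum_pq, Abel.mk_eq_mk_iff]
  have hconst : sumDiv (fun _ : Fin (genusFF ℂ F) => P₀) =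
      (genusFF ℂ F : ℤ) • Finsupp.single P₀ (1 : ℤ) := by
    rw [sumDiv, Finset.sum_const, Finset.card_univ, Fintype.card_fin, natCast_zsmul]
  have hD : (D : Divisor ℂ F) - (sumDiv Q - sumDiv fun _ : Fin (genusFF ℂ F) => P₀) =
      - divisorOf f := by
    rw [← hQ, hconst]
    abel
  change Divisor.IsPrincipal ((D : Divisor ℂ F) -
    (sumDiv Q - sumDiv fun _ : Fin (genusFF ℂ F) => P₀))
  rw [hD]
  exact (Divisor.principal (K := ℂ) (F := F)).neg_mem ⟨f, hf, fun v => divisorOf_apply f v⟩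

/-- local surjectivity of the Abel map of a good tuple -/
theorem abel_local_surj (B : HolBasis F) (c : Fin (genusFF ℂ F) → Chart F)
    (hgood : IsGood B.x fun i => (c i).pt 0) (δ : ℝ) (hδ : 0 < δ) :
    ∃ ε > 0, ∀ v : Fin (genusFF ℂ F) → ℂ, ‖v‖ < ε →
      ∃ s : Fin (genusFF ℂ F) → ℂ, (∀ i, ‖s i‖ < δ) ∧ ∑ i, (c i).abel B (s i) = v := by
  classical
  -- the period matrix at the centres
  let M : Matrix (Fin (genusFF ℂ F)) (Fin (genusFF ℂ F)) ℂ :=
    fun j i => (c i).form B.x (B.ω j) 0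
  have hdet : M.det ≠ 0 := by
    intro h0
    obtain ⟨a, ha0, ha⟩ := Matrix.exists_vecMul_eq_zero_iff.2 h0
    apply ha0
    have hω : ∑ j, a j • B.ω j ∈ Omega B.x (0 : Divisor ℂ F) :=
      Submodule.sum_mem _ fun j _ => Submodule.smul_mem _ _ (B.mem j)
    have hzero : ∑ j, a j • B.ω j = 0 := by
      refine eq_zero_of_val_eq_zero_of_isGood B.hx hgood (fun i => (c i).t) (fun i => ?_) hω
        (fun i => ?_)
      · have := (c i).ord_t 0 (c i).zero_mem
        simpa using this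
      · have h1 : (∑ j, a j • B.ω j) * dd (K := ℂ) (c i).t B.x =
            ∑ j, a j • (B.ω j * dd (K := ℂ) (c i).t B.x) := by
          rw [Finset.sum_mul]
          exact Finset.sum_congr rfl fun j _ => smul_mul_assoc _ _ _
        rw [h1, val_sum _ _ fun j _ =>
          OrdGE.smul (a j) ((c i).ordGE_form B.hx (B.mem j) (c i).zero_mem)]
        have h2 := congrFun ha i
        simp only [Matrix.vecMul, dotProduct, Pi.zero_apply] at h2
        exact (Finset.sum_congr rfl fun j _ => val_smul _ _).trans h2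
    funext j
    exact Fintype.linearIndependent_iff.1 B.li a hzero j
  -- the derivative
  let A : (Fin (genusFF ℂ F) → ℂ) →L[ℂ] (Fin (genusFF ℂ F) → ℂ) :=
    ContinuousLinearMap.pi fun j => ∑ i, M j i • ContinuousLinearMap.proj (R := ℂ)
      (φ := fun _ : Fin (genusFF ℂ F) => ℂ) i
  have hA_apply : ∀ s, A s = M.mulVec s := by
    intro s
    funext j
    simp [A, Matrix.mulVec, dotProduct]
  have hA : A.range = ⊤ := by
    rw [eq_top_iff]
    rintro v -
    refine ⟨M⁻¹.mulVec v, ?_⟩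
    change A (M⁻¹.mulVec v) = v
    rw [hA_apply, Matrix.mulVec_mulVec, Matrix.mul_nonsing_inv _ (isUnit_iff_ne_zero.2 hdet),
      Matrix.one_mulVec]
  have hstrict : ∀ i j, HasStrictDerivAt ((c i).prim B.x (B.ω j)) (M j i) 0 := by
    intro i j
    have hd : DifferentiableOn ℂ ((c i).prim B.x (B.ω j)) (Metric.ball 0 (c i).r) := fun τ hτ =>
      ((c i).prim_hasDerivAt B.hx (B.mem j) hτ).differentiableAt.differentiableWithinAt
    have han : AnalyticAt ℂ ((c i).prim B.x (B.ω j)) 0 :=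
      hd.analyticAt (Metric.ball_mem_nhds 0 (c i).r_pos)
    have := han.hasStrictDerivAt
    rwa [((c i).prim_hasDerivAt B.hx (B.mem j) (c i).zero_mem).deriv] at this
  have hΦ : HasStrictFDerivAt (fun s : Fin (genusFF ℂ F) → ℂ => ∑ i, (c i).abel B (s i)) A 0 := by
    have h1 : (fun s : Fin (genusFF ℂ F) → ℂ => ∑ i, (c i).abel B (s i)) =
        fun s j => ∑ i, (c i).prim B.x (B.ω j) (s i) := by
      funext s j
      rw [Finset.sum_apply]
      rfl
    rw [h1, hasStrictFDerivAt_pi]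
    intro j
    refine HasStrictFDerivAt.fun_sum fun i _ => ?_
    exact (hstrict i j).comp_hasStrictFDerivAt (0 : Fin (genusFF ℂ F) → ℂ)
      (ContinuousLinearMap.proj (R := ℂ) (φ := fun _ : Fin (genusFF ℂ F) => ℂ) i).hasStrictFDerivAt
  have hmap := hΦ.map_nhds_eq_of_surj hA
  have h0 : (∑ i, (c i).abel B ((0 : Fin (genusFF ℂ F) → ℂ) i)) = 0 := by simp
  rw [h0] at hmap
  have hU : (fun s : Fin (genusFF ℂ F) → ℂ => ∑ i, (c i).abel B (s i)) ''
      Metric.ball (0 : Fin (genusFF ℂ F) → ℂ) δ ∈ nhds (0 : Fin (genusFF ℂ F) → ℂ) := by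
    rw [← hmap]
    exact Filter.image_mem_map (Metric.ball_mem_nhds 0 hδ)
  obtain ⟨ε, hε, hsub⟩ := Metric.mem_nhds_iff.1 hU
  refine ⟨ε, hε, fun v hv => ?_⟩
  obtain ⟨s, hs, hsv⟩ := hsub (by simpa using hv : v ∈ Metric.ball (0 : Fin (genusFF ℂ F) → ℂ) ε)
  refine ⟨s, ?_, hsv⟩
  rw [mem_ball_zero_iff, pi_norm_lt_iff hδ] at hs
  exact hs

-- `triple_lemma` is proved in `B/Triple.lean`.

end Fermat.Agent.S27
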