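import Fermat.Agent.S27.B.ChartAlgAux

/-! # S27 / B / ChartAlg  (TASK S27/B1a): the algebraic input for the existence of charts (valid over any alg. closed `K` of char. 0).

Let `P` be a place and `t` a uniformizer at `P`.  We produce a generator `y` of `F/K(t)` and a polynomial relation `G(t,y) = 0` for which `(0,0)` is a simple root, `P` being the only place over `(0,0)`.

Proof.
1. `F/K(t)` is finite separable.  Let `Z = zeros K t ∋ P`.  By `Fermat.Agent.S26.exists_approx` there is `y₀` with `OrdGE P 1 y₀` and `OrdGE Q 1 (y₀ - 1)` for `Q ∈ Z`, `Q ≠ P`.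
   Let `z₀` be a primitive element of `F/K(t)` (`Field.exists_primitive_element`), `z := t^N z₀` with `N` large so that `OrdGE Q 1 z` for all `Q ∈ Z` (still primitive).
   Among the infinitely many `y₀ + c z` (`c ∈ K`) two generate the same intermediate field `E` of `F/K(t)` (finitely many intermediate fields:
   `Field.finite_intermediateField_of_exists_primitive_element` / `Field.exists_primitive_element_iff_finite_intermediateField`), so `z ∈ E`, `E = ⊤`.  `y := y₀ + c z`.
2. `χ := charpoly of multiplication by y over K(t)` is monic of degree `n = [F:K(t)]`, `χ(y) = 0` (`LinearMap.aeval_self_charpoly`), so `χ = minpoly K(t) y` (degree `n` because `y` is primitive).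
   `charpoly_ordGE`: every coefficient `χ_i ∈ K(t)` is regular at `P` with value the `i`-th coefficient of `∏_{Q ∈ Z} (Y - y(Q))^{e_Q} = Y (Y-1)^{n-1}` (`e_P = 1`, `∑ e_Q = n`, `sum_ord_zeros`).
3. Every `c ∈ K(t)` regular at `P` is `a(t)/d(t)` with `a, d ∈ K[X]`, `d(0) ≠ 0`, and then `val P c = a(0)/d(0)`
   (`IntermediateField.mem_adjoin_simple_iff`; cancel the common power of `X`; `ord_P (p(t)) = ` multiplicity of `X` in `p`).
   Take a common denominator `d` and `G := ∑ C (a_i) Y^i`, so `G(t, Y) = d(t) χ(Y)`; `G(0,Y) = d(0) Y (Y-1)^{n-1}`.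
4. (iv): if `p(t,y) = 0` then `χ ∣ p(t,Y)` in `K(t)[Y]`; clear denominators.
5. (v): `F = K(t)[y]`: `f = ∑ c_i y^i`, `c_i = a_i(t)/d(t)`. -/

set_option autoImplicit false

namespace Fermat.Agent.S27

open AlgebraicCurve Fermat.Agent.S26 IntermediateField Polynomial

theorem aeval_charpoly_mulLeft {E L : Type*} [Field E] [Field L] [Algebra E L]
    [FiniteDimensional E L] (y : L) : aeval y (LinearMap.mulLeft E y).charpoly = 0 := by
  apply Algebra.lmul_injective (R := E)
  rw [map_zero, ← Polynomial.aeval_algHom_apply]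
  exact LinearMap.aeval_self_charpoly (LinearMap.mulLeft E y)

theorem charpoly_mulLeft_eq_minpoly {E L : Type*} [Field E] [Field L] [Algebra E L]
    [FiniteDimensional E L] {y : L} (hy : E⟮y⟯ = ⊤) :
    (LinearMap.mulLeft E y).charpoly = minpoly E y := by
  have hint : IsIntegral E y := IsIntegral.of_finite E y
  refine eq_of_monic_of_dvd_of_natDegree_le (minpoly.monic hint) (LinearMap.charpoly_monic _)
    (minpoly.dvd E y (aeval_charpoly_mulLeft y)) ?_
  rw [LinearMap.charpoly_natDegree, ← IntermediateField.adjoin.finrank hint, hy,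
    IntermediateField.finrank_top']

variable {K F : Type*} [Field K] [Field F] [Algebra K F]

theorem exists_rep_phiT (t : F) (c : K⟮t⟯) :
    ∃ a d : Polynomial K, d ≠ 0 ∧ phiT K t d * c = phiT K t a := by
  obtain ⟨r, s, hrs⟩ := (mem_adjoin_simple_iff K (c : F)).mp c.2
  by_cases hs : aeval t s = 0
  · refine ⟨0, 1, one_ne_zero, ?_⟩
    have : c = 0 := by
      apply Subtype.ext
      rw [hrs, hs, div_zero]; rfl
    simp [this]
  · refine ⟨r, s, ?_, ?_⟩
    · rintro rfl
      exact hs (by simp)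
    · apply (algebraMap K⟮t⟯ F).injective
      rw [map_mul, algebraMap_phiT, algebraMap_phiT]
      change aeval t s * (c : F) = _
      rw [hrs]
      field_simp

theorem evalEval_zero_zero (G : Polynomial (Polynomial K)) : G.evalEval 0 0 = (G.coeff 0).eval 0 := by
  rw [evalEval, C_0, ← coeff_zero_eq_eval_zero G]

theorem exists_aeval_eq_of_adjoin_eq_top {E L : Type*} [Field E] [Field L] [Algebra E L]
    [FiniteDimensional E L] {y : L} (hy : E⟮y⟯ = ⊤) (f : L) : ∃ h : Polynomial E, f = aeval y h := by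
  have hint : IsAlgebraic E y := (IsIntegral.of_finite E y).isAlgebraic
  have h1 : f ∈ E⟮y⟯.toSubalgebra := by rw [hy]; trivial
  rw [adjoin_simple_toSubalgebra_of_isAlgebraic hint, Algebra.adjoin_singleton_eq_range_aeval] at h1
  obtain ⟨h, hh⟩ := h1
  exact ⟨h, hh.symm⟩

variable [IsAlgClosed K] [CharZero K] [FF1 K F]

theorem exists_good_generator (P : Place K F) (t : F) (ht : P.ord t = 1) :
    ∃ y : F, K⟮t⟯⟮y⟯ = ⊤ ∧ OrdGE P 1 y ∧
      ∀ Q : Place K F, 0 < Q.ord t → Q ≠ P → OrdGE Q 1 (y - 1) := by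
  classical
  have htt : Transcendental K t := transcendental_of_ord_ne_zero P (by omega)
  have hfd := finiteDimensional_adjoin htt
  have ht0 : t ≠ 0 := Fermat.Agent.S24.FF.ne_zero_of_ord_ne_zero P (by omega)
  obtain ⟨y₀, hy₀⟩ := exists_approx (zeros K t) (fun Q => if Q = P then (0 : F) else 1) (fun _ => 1)
  obtain ⟨z₀, hz₀⟩ := Field.exists_primitive_element K⟮t⟯ F
  set N : ℕ := 1 + ∑ Q ∈ zeros K t, (- Q.ord z₀).toNat with hN
  set z := t ^ N * z₀ with hzdef
  have hz : ∀ Q ∈ zeros K t, OrdGE Q 1 z := by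
    intro Q hQ
    by_cases hz0 : z₀ = 0
    · left; simp [hzdef, hz0]
    right
    rw [hzdef, Q.ord_mul (pow_ne_zero _ ht0) hz0, Fermat.Agent.S24.FF.ord_pow]
    have h1 : (- Q.ord z₀).toNat ≤ ∑ Q ∈ zeros K t, (- Q.ord z₀).toNat :=
      Finset.single_le_sum (f := fun Q : Place K F => (- Q.ord z₀).toNat) (fun _ _ => Nat.zero_le _) hQ
    have h2 := Int.self_le_toNat (- Q.ord z₀)
    have h3 : 0 < Q.ord t := mem_zeros.mp hQ
    have h4 : (N : ℤ) ≤ N * Q.ord t := by nlinarith
    have h5 : (N : ℤ) = 1 + ((∑ Q ∈ zeros K t, (- Q.ord z₀).toNat : ℕ) : ℤ) := by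
      rw [hN]; push_cast; ring
    omega
  have htmem : ∀ E : IntermediateField K⟮t⟯ F, t ∈ E := by
    intro E
    have := E.algebraMap_mem (AdjoinSimple.gen K t)
    rwa [AdjoinSimple.algebraMap_gen] at this
  have hcmem : ∀ (E : IntermediateField K⟮t⟯ F) (c : K), algebraMap K F c ∈ E := by
    intro E c
    have := E.algebraMap_mem (algebraMap K K⟮t⟯ c)
    rwa [← IsScalarTower.algebraMap_apply] at this
  have hzprim : ∀ E : IntermediateField K⟮t⟯ F, z ∈ E → E = ⊤ := by
    intro E hE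
    rw [eq_top_iff, ← hz₀, adjoin_simple_le_iff]
    have : z₀ = z / t ^ N := by rw [hzdef]; field_simp
    rw [this]
    exact E.div_mem hE (pow_mem (htmem E) N)
  have hfin : Finite (IntermediateField K⟮t⟯ F) :=
    Field.finite_intermediateField_of_exists_primitive_element K⟮t⟯ F ⟨z₀, hz₀⟩
  obtain ⟨c₁, c₂, hc, hE⟩ := Finite.exists_ne_map_eq_of_infinite
    (fun c : K => K⟮t⟯⟮y₀ + algebraMap K F c * z⟯)
  change K⟮t⟯⟮y₀ + algebraMap K F c₁ * z⟯ = K⟮t⟯⟮y₀ + algebraMap K F c₂ * z⟯ at hE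
  refine ⟨y₀ + algebraMap K F c₁ * z, ?_, ?_, ?_⟩
  · apply hzprim
    set E := K⟮t⟯⟮y₀ + algebraMap K F c₁ * z⟯ with hEdef
    have h1 : y₀ + algebraMap K F c₁ * z ∈ E := mem_adjoin_simple_self _ _
    have h2 : y₀ + algebraMap K F c₂ * z ∈ E := by rw [hE]; exact mem_adjoin_simple_self _ _
    have h3 : algebraMap K F (c₁ - c₂) ≠ 0 := by
      simpa [sub_eq_zero] using hc
    have h4 : z = ((y₀ + algebraMap K F c₁ * z) - (y₀ + algebraMap K F c₂ * z)) / algebraMap K F (c₁ - c₂) := by
      rw [eq_div_iff h3, map_sub]; ring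
    rw [h4]
    exact E.div_mem (E.sub_mem h1 h2) (hcmem E _)
  · have hP : P ∈ zeros K t := mem_zeros.mpr (by omega)
    have h1 : OrdGE P 1 y₀ := by
      have := hy₀ P hP
      simpa [OrdGE] using this
    refine h1.add ?_
    simpa using (OrdGE.algebraMap P c₁).mul (hz P hP)
  · intro Q hQ hQP
    have hQ' : Q ∈ zeros K t := mem_zeros.mpr hQ
    have h1 : OrdGE Q 1 (y₀ - 1) := by
      have := hy₀ Q hQ'
      simpa [OrdGE, hQP, sub_eq_zero] using this
    have h2 : OrdGE Q 1 (algebraMap K F c₁ * z) := by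
      simpa using (OrdGE.algebraMap Q c₁).mul (hz Q hQ')
    have := h1.add h2
    convert this using 1
    ring


theorem exists_good_polynomial (P : Place K F) (t : F) (ht : P.ord t = 1) :
    ∃ (y : F) (G : Polynomial (Polynomial K)),
      aevalAeval t y G = 0 ∧ G.evalEval 0 0 = 0 ∧ (derivative G).evalEval 0 0 ≠ 0 ∧
      (∀ p : Polynomial (Polynomial K), aevalAeval t y p = 0 →
        ∃ d : Polynomial K, d ≠ 0 ∧ G ∣ C d * p) ∧
      (∀ f : F, ∃ (p : Polynomial (Polynomial K)) (d : Polynomial K), d ≠ 0 ∧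
        f = aevalAeval t y p / aeval t d) ∧
      OrdGE P 1 y ∧ (∀ Q : Place K F, 0 < Q.ord t → OrdGE Q 1 y → Q = P) := by
  classical
  have htt : Transcendental K t := transcendental_of_ord_ne_zero P (by omega)
  have hfd := finiteDimensional_adjoin htt
  have ht1 : OrdGE P 1 t := Or.inr ht.ge
  have ht0 : OrdGE P 0 t := ht1.mono zero_le_one
  have hvt : val P t = 0 := (val_eq_zero_iff ht0).mpr ht1
  have hPz : P ∈ zeros K t := mem_zeros.mpr (by omega)
  have hinj := phiT_injective htt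
  obtain ⟨y, hy, hyP, hyQ⟩ := exists_good_generator P t ht
  set χ := (LinearMap.mulLeft K⟮t⟯ y).charpoly with hχ
  have hχmin : χ = minpoly K⟮t⟯ y := charpoly_mulLeft_eq_minpoly hy
  have hχy : aeval y χ = 0 := aeval_charpoly_mulLeft y
  -- regularity of `y` on the zeros of `t`
  have hreg : ∀ v : Place K F, 0 < v.ord t → OrdGE v 0 y := by
    intro v hv
    by_cases hvP : v = P
    · rw [hvP]; exact hyP.mono zero_le_one
    · have h1 := (hyQ v hv hvP).mono zero_le_one
      have h2 : OrdGE v 0 (1 : F) := by simpa using OrdGE.algebraMap v (1 : K)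
      simpa using h1.add h2
  have hvalP : val P y = 0 := (val_eq_zero_iff (hyP.mono zero_le_one)).mpr hyP
  have hvalQ : ∀ v ∈ (zeros K t).erase P, val v y = 1 := by
    intro v hv
    obtain ⟨hvP, hv⟩ := Finset.mem_erase.mp hv
    exact val_eq_of (by simpa using hyQ v (mem_zeros.mp hv) hvP)
  set H : Polynomial K := ∏ v ∈ zeros K t, (X - C (val v y)) ^ (v.ord t).toNat with hH
  set R : Polynomial K := ∏ v ∈ (zeros K t).erase P, (X - C (val v y)) ^ (v.ord t).toNat with hR
  have hHR : H = X * R := by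
    rw [hH, ← Finset.mul_prod_erase _ _ hPz, hvalP, ht, hR]
    simp
  have hR0 : R.eval 0 ≠ 0 := by
    rw [hR, eval_prod, Finset.prod_ne_zero_iff]
    intro v hv
    rw [hvalQ v hv]
    simp
  have hH0 : H.coeff 0 = 0 := by rw [hHR, coeff_X_mul_zero]
  have hH1 : H.coeff 1 ≠ 0 := by
    rw [hHR, coeff_X_mul, coeff_zero_eq_eval_zero]; exact hR0
  have hcoeff : ∀ i, OrdGE P 1 (algebraMap K⟮t⟯ F (χ.coeff i) - algebraMap K F (H.coeff i)) :=
    fun i => charpoly_ordGE htt hreg (by omega) i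
  have hcreg : ∀ i, OrdGE P 0 (algebraMap K⟮t⟯ F (χ.coeff i)) := by
    intro i
    simpa using ((hcoeff i).mono zero_le_one).add (OrdGE.algebraMap P (H.coeff i))
  have hcval : ∀ i, val P (algebraMap K⟮t⟯ F (χ.coeff i)) = H.coeff i := fun i => val_eq_of (hcoeff i)
  obtain ⟨d, G, hd, hG⟩ := exists_clear_denominators t (fun d : Polynomial K => d.eval 0 ≠ 0)
    (by simp) (fun a b ha hb => by rw [eval_mul]; exact mul_ne_zero ha hb) χ (by
      intro i
      obtain ⟨a, d, hd, had⟩ := exists_rep_of_regular ht (χ.coeff i).2 (hcreg i)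
      refine ⟨a, d, hd, ?_⟩
      apply (algebraMap K⟮t⟯ F).injective
      rw [map_mul, algebraMap_phiT, algebraMap_phiT]
      have hd0 := (ord_aeval_eq_zero ht1 hd).1
      change aeval t d * ((χ.coeff i : K⟮t⟯) : F) = _
      rw [had]
      field_simp)
  have hd0 : d ≠ 0 := by
    rintro rfl
    simp at hd
  have hGcoeff : ∀ i, (G.coeff i).eval 0 = d.eval 0 * H.coeff i := by
    intro i
    have h1 := congrArg (fun q => algebraMap K⟮t⟯ F (q.coeff i)) hG
    simp only [coeff_map, coeff_C_mul, map_mul, algebraMap_phiT] at h1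
    have h2 := congrArg (val P) h1
    rw [val_mul (val_aeval ht0 d).1 (hcreg i), (val_aeval ht0 d).2, (val_aeval ht0 _).2, hvt,
      hcval] at h2
    exact h2
  refine ⟨y, G, ?_, ?_, ?_, ?_, ?_, hyP, ?_⟩
  · rw [aevalAeval_eq_aeval_map, hG, map_mul, hχy, mul_zero]
  · rw [evalEval_zero_zero, hGcoeff, hH0, mul_zero]
  · rw [evalEval_zero_zero, coeff_derivative, eval_mul, hGcoeff]
    simpa using ⟨hd, hH1⟩
  · intro p hp
    rw [aevalAeval_eq_aeval_map] at hp
    obtain ⟨q, hq⟩ := minpoly.dvd K⟮t⟯ y hp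
    rw [← hχmin] at hq
    obtain ⟨d', Q, hd', hQ⟩ := exists_clear_denominators t (fun d : Polynomial K => d ≠ 0)
      one_ne_zero (fun a b ha hb => mul_ne_zero ha hb) q (fun i => exists_rep_phiT t (q.coeff i))
    refine ⟨d * d', mul_ne_zero hd0 hd', Q, ?_⟩
    apply Polynomial.map_injective _ hinj
    rw [Polynomial.map_mul, Polynomial.map_mul, hG, hQ, map_C, hq, map_mul, C_mul]
    ring
  · intro f
    obtain ⟨h, hh⟩ := exists_aeval_eq_of_adjoin_eq_top hy f
    obtain ⟨d', Q, hd', hQ⟩ := exists_clear_denominators t (fun d : Polynomial K => d ≠ 0)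
      one_ne_zero (fun a b ha hb => mul_ne_zero ha hb) h (fun i => exists_rep_phiT t (h.coeff i))
    refine ⟨Q, d', hd', ?_⟩
    have hne : aeval t d' ≠ 0 := fun h0 => hd' ((_root_.transcendental_iff.mp htt) d' h0)
    rw [aevalAeval_eq_aeval_map, hQ, map_mul, aeval_C, algebraMap_phiT, ← hh]
    field_simp
  · intro Q hQ hQy
    by_contra hQP
    have h1 := hQy.sub (hyQ Q hQ hQP)
    have h2 : OrdGE Q 1 (algebraMap K F 1) := by simpa using h1
    exact one_ne_zero (eq_zero_of_ordGE_one_algebraMap h2)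

end Fermat.Agent.S27
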