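import Fermat.Agent.S27.B.ChartAn
import Fermat.Agent.S27.B.ChartAlg
import Fermat.Agent.S27.Gen.AnalyticRoot

/-! # S27 / B / Chart  (TASKS S27/B1*): holomorphic charts on the set of places of `F/ℂ`.

A chart is a family of places `pt τ` (`‖τ‖ < r`) such that `t - τ` is a uniformizer at `pt τ` and every `f ∈ F` regular at `pt τ` is
holomorphic near `τ` (as the function `s ↦ f(pt s) = val (pt s) f`), with the right order of vanishing.

**Existence** (`exists_chart`).  Let `P` be a place, `t` a uniformizer at `P`; `F/ℂ(t)` is finite.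
1. (B1a) Choose `y ∈ F` with `ℂ(t)(y) = F`, regular at all zeros `Q` of `t`, `y(P) = 0`, `y(Q) = 1` for the other zeros `Q ≠ P` of `t`
   (weak approximation `Fermat.Agent.S26.exists_approx` gives `y₀`; for a primitive element `z` (times a power of `t`, so that it vanishes at
   all zeros of `t`), `y₀ + c z` is primitive for all but finitely many `c ∈ ℂ`: finitely many intermediate fields).
   Let `χ ∈ ℂ(t)[Y]` be its minimal (= characteristic) polynomial.  Its coefficients are regular at `t = 0` and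
   `χ mod t = ∏_Q (Y - y(Q))^{e_Q} = Y (Y-1)^{n-1}`  (same proof as `trF_ordGE` in `A/Trace.lean`, for the characteristic polynomial instead of the
   trace; alternatively Newton identities from `trF_ordGE` applied to the powers `y^k`: the power sums `Tr(y^k) ≡ n - 1` determine `χ mod t` in char. 0).
   Clearing denominators (prime to `t`): `G ∈ ℂ[t][Y]` with `G(t,y) = 0`, `G(0,0) = 0`, `∂G/∂Y (0,0) ≠ 0`.
2. (B1b) `exists_analytic_root` gives `ỹ` holomorphic on a ball with `G(τ, ỹ τ) = 0`, `ỹ 0 = 0`.  For `‖τ‖ < r` get the `ℂ`-algebra hom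
   `ε_τ : ℂ[t,y] → ℂ`, `t ↦ τ`, `y ↦ ỹ τ`  (well defined: `ℂ[t,y] ⊆ F`; an element `p(t,y) = 0` in `F` means `χ ∣ p` in `ℂ(t)[Y]`, so
   `d(t) p = G q` in `ℂ[t][Y]`, so `d(τ) p(τ,ỹ τ) = 0` for all `τ`, so `p(τ, ỹ τ) = 0` by the identity theorem).
   For `a ∈ ℂ[t,y]`, `a ≠ 0`, the holomorphic function `τ ↦ ε_τ a` is not identically zero (`a a' = d(t) ≠ 0` for some `a'`).
3. (B1c) `w_τ (a / b) := analyticOrderAt (ε a) τ - analyticOrderAt (ε b) τ` is an "ordFun" on `F`, trivial on `ℂ`, `w_τ (t - τ) = 1`;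
   `Fermat.Agent.S24.FF.exists_place_of_ordFun` gives the place `pt τ` with `ord = w_τ`.  `pt 0 = P`: both are zeros of `t` where `y` vanishes
   … use: `ord_{pt 0} t = 1 > 0`, `y(pt 0) = ỹ 0 = 0`, and `P` is the only zero of `t` with `y = 0`.
   `val (pt s) (a/b) = ε_s a / ε_s b` whenever `ε_s b ≠ 0`; analyticity and orders follow. See S24/Embeddings, S24/Taylor for similar arguments. -/

set_option autoImplicit false

namespace Fermat.Agent.S27

open AlgebraicCurve Fermat.Agent.S26 IntermediateField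

variable {F : Type*} [Field F] [Algebra ℂ F] [FF1 ℂ F]

/-- **Existence of charts.** -/
theorem exists_chart (P : Place ℂ F) (t : F) (ht : P.ord t = 1) :
    ∃ c : Chart F, c.t = t ∧ c.pt 0 = P := by
  obtain ⟨y, G, hG, hG0, hG1, hker, hfrac, hyP, huniq⟩ := exists_good_polynomial P t ht
  obtain ⟨r, hr, yt, hyt, hyt0, hroot⟩ := exists_analytic_root G 0 hG0 hG1
  have htt : Transcendental ℂ t := transcendental_of_ord_ne_zero P (by omega)
  let D : ChartData F :=
    { t := t
      y := y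
      r := r
      r_pos := hr
      yt := yt
      yt_an := hyt
      ker := by
        intro p hp τ hτ
        obtain ⟨d, hd, q, hq⟩ := hker p hp
        have han : AnalyticAt ℂ (fun s => p.evalEval s (yt s)) τ := evalEval_analyticAt (hyt τ hτ) p
        have hev : (fun s => p.evalEval s (yt s)) =ᶠ[nhdsWithin τ {τ}ᶜ] fun _ => 0 := by
          filter_upwards [eventually_eval_ne_zero hd τ,
            nhdsWithin_le_nhds (Metric.isOpen_ball.mem_nhds hτ)] with s hs hsb
          have h1 := congrArg (Polynomial.evalEval s (yt s)) hq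
          rw [Polynomial.evalEval_mul, Polynomial.evalEval_mul, Polynomial.evalEval_C, hroot s hsb,
            zero_mul] at h1
          exact (mul_eq_zero.mp h1).resolve_left hs
        have h1 : Filter.Tendsto (fun s => p.evalEval s (yt s)) (nhdsWithin τ {τ}ᶜ)
            (nhds (p.evalEval τ (yt τ))) := han.continuousAt.tendsto.mono_left nhdsWithin_le_nhds
        have h2 : Filter.Tendsto (fun s => p.evalEval s (yt s)) (nhdsWithin τ {τ}ᶜ) (nhds 0) :=
          (Filter.tendsto_congr' hev).mpr tendsto_const_nhds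
        exact tendsto_nhds_unique h1 h2
      frac := hfrac
      ht := htt }
  refine ⟨D.toChart, rfl, ?_⟩
  have h0 : (0 : ℂ) ∈ Metric.ball (0 : ℂ) D.r := Metric.mem_ball_self hr
  apply huniq
  · have := D.toChart.ord_t 0 h0
    simp only [map_zero, sub_zero] at this
    show 0 < (D.pt 0).ord t
    have h2 : (D.pt 0).ord t = 1 := this
    omega
  · obtain ⟨h1, h2⟩ := D.val_y h0
    exact (val_eq_zero_iff h1).mp (h2.trans hyt0)

namespace Chart

variable (c : Chart F)

omit [FF1 ℂ F] in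
theorem zero_mem : (0 : ℂ) ∈ Metric.ball (0 : ℂ) c.r := Metric.mem_ball_self c.r_pos

theorem transcendental_t : Transcendental ℂ c.t := by
  have h := c.ord_t 0 c.zero_mem
  simp only [map_zero, sub_zero] at h
  exact transcendental_of_ord_ne_zero (c.pt 0) (by omega)

omit [FF1 ℂ F] in
theorem val_t {τ : ℂ} (hτ : τ ∈ Metric.ball (0 : ℂ) c.r) : val (c.pt τ) c.t = τ :=
  val_eq_of (Or.inr (c.ord_t τ hτ).ge)

omit [FF1 ℂ F] in
theorem ordGE_t {τ : ℂ} (hτ : τ ∈ Metric.ball (0 : ℂ) c.r) : OrdGE (c.pt τ) 0 c.t := by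
  have h1 : OrdGE (c.pt τ) 0 (c.t - algebraMap ℂ F τ) := Or.inr (by rw [c.ord_t τ hτ]; exact zero_le_one)
  have := h1.add (OrdGE.algebraMap (c.pt τ) τ)
  simpa using this

omit [FF1 ℂ F] in
theorem injOn : Set.InjOn c.pt (Metric.ball (0 : ℂ) c.r) := by
  intro τ hτ τ' hτ' h
  rw [← c.val_t hτ, ← c.val_t hτ', h]

/-- if the value of `g` at a place is nonzero then `g` is a unit there -/
theorem ord_eq_zero_of_val_ne_zero {v : Place ℂ F} {g : F} (h : val v g ≠ 0) :
    g ≠ 0 ∧ v.ord g = 0 := by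
  have hreg : OrdGE v 0 g := by
    by_contra hcon
    have : v.ord g < 0 := by
      by_contra h2
      exact hcon (Or.inr (not_lt.mp h2))
    exact h (val_of_pole this)
  exact (val_ne_zero_iff hreg).mp h

/-- regularity is an open condition -/
theorem eventually_regular {f : F} {τ : ℂ} (hτ : τ ∈ Metric.ball (0 : ℂ) c.r) (hf : OrdGE (c.pt τ) 0 f) :
    ∀ᶠ s in nhds τ, OrdGE (c.pt s) 0 f := by
  set a := val (c.pt τ) f with ha
  set g := f + algebraMap ℂ F (1 - a) with hg
  have hgreg : OrdGE (c.pt τ) 0 g := hf.add (OrdGE.algebraMap _ _)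
  have hgval : val (c.pt τ) g = 1 := by
    rw [hg, val_add hf (OrdGE.algebraMap _ _), val_algebraMap]; ring
  obtain ⟨hg0, hgord⟩ := (val_ne_zero_iff hgreg).mp (by rw [hgval]; exact one_ne_zero)
  have hinvreg : OrdGE (c.pt τ) 0 g⁻¹ := Or.inr (by rw [Place.ord_inv, hgord]; simp)
  have hinvval : val (c.pt τ) g⁻¹ = 1 := by rw [val_inv hg0 hgord, hgval, inv_one]
  have hcont := (c.analytic g⁻¹ τ hτ hinvreg).continuousAt
  have hne : ∀ᶠ s in nhds τ, val (c.pt s) g⁻¹ ≠ 0 :=
    hcont.eventually_ne (by simp only [hinvval]; exact one_ne_zero)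
  filter_upwards [hne] with s hs
  obtain ⟨_, h2⟩ := ord_eq_zero_of_val_ne_zero hs
  rw [Place.ord_inv] at h2
  have h3 : OrdGE (c.pt s) 0 g := Or.inr (by omega)
  have := h3.sub (OrdGE.algebraMap (c.pt s) (1 - a))
  simpa [hg] using this

/-- zeros and poles are isolated -/
theorem eventually_ord_eq_zero {f : F} (hf : f ≠ 0) {τ : ℂ} (hτ : τ ∈ Metric.ball (0 : ℂ) c.r) :
    ∀ᶠ s in nhdsWithin τ {τ}ᶜ, (c.pt s).ord f = 0 := by
  have key : ∀ h : F, h ≠ 0 → 0 ≤ (c.pt τ).ord h →
      ∀ᶠ s in nhdsWithin τ {τ}ᶜ, (c.pt s).ord h = 0 := by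
    intro h hh0 hh
    have han := c.analytic h τ hτ (Or.inr hh)
    have hord := c.order h hh0 τ hτ hh
    rcases han.eventually_eq_zero_or_eventually_ne_zero with h1 | h1
    · exfalso
      have : analyticOrderAt (fun s => val (c.pt s) h) τ = ⊤ := analyticOrderAt_eq_top.mpr h1
      rw [this] at hord
      exact ENat.top_ne_natCast _ hord
    · filter_upwards [h1] with s hs
      exact (ord_eq_zero_of_val_ne_zero hs).2
  rcases le_or_gt 0 ((c.pt τ).ord f) with h | h
  · exact key f hf h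
  · have := key f⁻¹ (inv_ne_zero hf) (by rw [Place.ord_inv]; omega)
    filter_upwards [this] with s hs
    rw [Place.ord_inv] at hs
    omega

/-- the derivative of `f` along the chart is `df/dt`. -/
theorem hasDerivAt {f : F} {τ : ℂ} (hτ : τ ∈ Metric.ball (0 : ℂ) c.r) (hf : OrdGE (c.pt τ) 0 f) :
    HasDerivAt (fun s => val (c.pt s) f) (val (c.pt τ) (dd (K := ℂ) c.t f)) τ := by
  have ht := c.ord_t τ hτ
  have htay := taylor_two ht hf
  rw [dd_sub_algebraMap] at htay
  set a₀ := val (c.pt τ) f with ha₀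
  set a₁ := val (c.pt τ) (dd (K := ℂ) c.t f) with ha₁
  set h := f - algebraMap ℂ F a₀ - algebraMap ℂ F a₁ * (c.t - algebraMap ℂ F τ) with hh
  have hder : HasDerivAt (fun s => val (c.pt s) h) 0 τ := by
    rcases htay with h0 | h2
    · rw [h0]
      simpa using hasDerivAt_const τ (0 : ℂ)
    · have hh0 : h ≠ 0 := Fermat.Agent.S24.FF.ne_zero_of_ord_ne_zero (c.pt τ) (by omega)
      have han := c.analytic h τ hτ (Or.inr (by omega))
      have hord := c.order h hh0 τ hτ (by omega)
      have h2' : ((2 : ℕ) : ℕ∞) ≤ analyticOrderAt (fun s => val (c.pt s) h) τ := by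
        rw [hord]
        exact_mod_cast (by omega : 2 ≤ ((c.pt τ).ord h).toNat)
      have := (natCast_le_analyticOrderAt_iff_iteratedDeriv_eq_zero han).mp h2' 1 (by norm_num)
      rw [iteratedDeriv_one] at this
      rw [← this]
      exact han.differentiableAt.hasDerivAt
  have hev : (fun s => val (c.pt s) f)
      =ᶠ[nhds τ] fun s => val (c.pt s) h + (a₀ + a₁ * (s - τ)) := by
    filter_upwards [c.eventually_regular hτ hf, Metric.isOpen_ball.mem_nhds hτ] with s hs hsb
    have h1 : OrdGE (c.pt s) 0 (c.t - algebraMap ℂ F τ) := (c.ordGE_t hsb).sub (OrdGE.algebraMap _ _)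
    have h2 : OrdGE (c.pt s) 0 (algebraMap ℂ F a₁ * (c.t - algebraMap ℂ F τ)) := by
      simpa using (OrdGE.algebraMap (c.pt s) a₁).mul h1
    rw [hh, val_sub (hs.sub (OrdGE.algebraMap _ _)) h2, val_sub hs (OrdGE.algebraMap _ _),
      val_mul (OrdGE.algebraMap _ _) h1, val_sub (c.ordGE_t hsb) (OrdGE.algebraMap _ _),
      val_algebraMap, val_algebraMap, val_algebraMap, c.val_t hsb]
    ring
  have hlin : HasDerivAt (fun s : ℂ => a₀ + a₁ * (s - τ)) a₁ τ := by
    simpa using (((hasDerivAt_id τ).sub_const τ).const_mul a₁).const_add a₀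
  have := (hder.add hlin).congr_of_eventuallyEq hev
  simpa using this

/-- shrinking a chart -/
def shrink (r' : ℝ) (h0 : 0 < r') (h : r' ≤ c.r) : Chart F where
  t := c.t
  r := r'
  r_pos := h0
  pt := c.pt
  ord_t τ hτ := c.ord_t τ (Metric.ball_subset_ball h hτ)
  analytic f τ hτ := c.analytic f τ (Metric.ball_subset_ball h hτ)
  order f hf τ hτ := c.order f hf τ (Metric.ball_subset_ball h hτ)

omit [FF1 ℂ F] in
theorem add_mem_ball {τ₁ s : ℂ} (hs : s ∈ Metric.ball (0 : ℂ) (c.r - ‖τ₁‖)) :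
    τ₁ + s ∈ Metric.ball (0 : ℂ) c.r := by
  rw [mem_ball_zero_iff] at hs ⊢
  have := norm_add_le τ₁ s
  linarith

/-- recentering a chart -/
noncomputable def shift (τ₁ : ℂ) (h : τ₁ ∈ Metric.ball (0 : ℂ) c.r) : Chart F where
  t := c.t - algebraMap ℂ F τ₁
  r := c.r - ‖τ₁‖
  r_pos := by simpa using h
  pt := fun s => c.pt (τ₁ + s)
  ord_t := by
    intro s hs
    have := c.ord_t (τ₁ + s) (c.add_mem_ball hs)
    rwa [map_add, ← sub_sub] at this
  analytic := by
    intro f s hs hf
    have h1 := c.analytic f (τ₁ + s) (c.add_mem_ball hs) hf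
    have h2 : AnalyticAt ℂ (fun s' : ℂ => τ₁ + s') s := by fun_prop
    exact AnalyticAt.comp (f := fun s' : ℂ => τ₁ + s') (g := fun s' => val (c.pt s') f) h1 h2
  order := by
    intro f hf0 s hs hf
    have h1 := c.order f hf0 (τ₁ + s) (c.add_mem_ball hs) hf
    have h2 : AnalyticAt ℂ (fun s' : ℂ => τ₁ + s') s := by fun_prop
    have h3 : deriv (fun s' : ℂ => τ₁ + s') s ≠ 0 := by
      simp
    have := analyticOrderAt_comp_of_deriv_ne_zero (f := fun s' => val (c.pt s') f) h2 h3
    rw [← h1, ← this]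
    rfl

/-- a chart avoids a place different from its centre, near the centre -/
theorem exists_avoid (c : Chart F) (Q : Place ℂ F) (h : c.pt 0 ≠ Q) :
    ∃ δ > 0, ∀ s : ℂ, ‖s‖ < δ → c.pt s ≠ Q := by
  obtain ⟨f, hf1, hf2⟩ := exists_separating h
  have hcont := (c.analytic f 0 c.zero_mem (hf1.mono zero_le_one)).continuousAt
  have hv0 : val (c.pt 0) f = 0 := (val_eq_zero_iff (hf1.mono zero_le_one)).mpr hf1
  have hvQ : val Q f = 1 := val_eq_of (by simpa using hf2)
  have hne : ∀ᶠ s in nhds (0 : ℂ), val (c.pt s) f ≠ 1 :=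
    hcont.eventually_ne (by simp only [hv0]; exact zero_ne_one)
  obtain ⟨δ, hδ, hball⟩ := Metric.eventually_nhds_iff.mp hne
  refine ⟨δ, hδ, fun s hs hsQ => ?_⟩
  exact hball (by simpa using hs) (by rw [hsQ, hvQ])

/-- two charts with distinct centres have disjoint images near the centres -/
theorem exists_disjoint (c c' : Chart F) (h : c.pt 0 ≠ c'.pt 0) :
    ∃ δ > 0, ∀ s s' : ℂ, ‖s‖ < δ → ‖s'‖ < δ → c.pt s ≠ c'.pt s' := by
  obtain ⟨f, hf1, hf2⟩ := exists_separating h
  have hf2' : OrdGE (c'.pt 0) 0 f := by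
    have := (hf2.mono zero_le_one).add (OrdGE.algebraMap (c'.pt 0) 1)
    simpa using this
  have hcont := (c.analytic f 0 c.zero_mem (hf1.mono zero_le_one)).continuousAt
  have hcont' := (c'.analytic f 0 c'.zero_mem hf2').continuousAt
  have hv0 : val (c.pt 0) f = 0 := (val_eq_zero_iff (hf1.mono zero_le_one)).mpr hf1
  have hv1 : val (c'.pt 0) f = 1 := val_eq_of (by simpa using hf2)
  have h1 : ∀ᶠ s in nhds (0 : ℂ), ‖val (c.pt s) f‖ < 1 / 2 := by
    have : Filter.Tendsto (fun s => ‖val (c.pt s) f‖) (nhds 0) (nhds ‖val (c.pt 0) f‖) :=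
      hcont.norm.tendsto
    rw [hv0, norm_zero] at this
    exact this.eventually_lt_const (by norm_num)
  have h2 : ∀ᶠ s in nhds (0 : ℂ), 1 / 2 < ‖val (c'.pt s) f‖ := by
    have : Filter.Tendsto (fun s => ‖val (c'.pt s) f‖) (nhds 0) (nhds ‖val (c'.pt 0) f‖) :=
      hcont'.norm.tendsto
    rw [hv1, norm_one] at this
    exact this.eventually_const_lt (by norm_num)
  obtain ⟨δ₁, hδ₁, hb₁⟩ := Metric.eventually_nhds_iff.mp h1
  obtain ⟨δ₂, hδ₂, hb₂⟩ := Metric.eventually_nhds_iff.mp h2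
  refine ⟨min δ₁ δ₂, lt_min hδ₁ hδ₂, fun s s' hs hs' heq => ?_⟩
  have a1 := hb₁ (y := s) (by simpa using lt_of_lt_of_le hs (min_le_left _ _))
  have a2 := hb₂ (y := s') (by simpa using lt_of_lt_of_le hs' (min_le_right _ _))
  rw [heq] at a1
  linarith

end Chart

end Fermat.Agent.S27
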