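import Fermat.Agent.S27.A.Trace

/-! # S27 / B / ChartAlgAux : auxiliary lemmas for `ChartAlg` (rational functions in `t`, clearing denominators). -/

set_option autoImplicit false

namespace Fermat.Agent.S27

open AlgebraicCurve Fermat.Agent.S26 IntermediateField Polynomial

variable {K F : Type*} [Field K] [Field F] [Algebra K F]

/-- `K[X] → K(t)`. -/
noncomputable def phiT (K : Type*) {F : Type*} [Field K] [Field F] [Algebra K F] (t : F) :
    Polynomial K →+* K⟮t⟯ := (aeval (AdjoinSimple.gen K t)).toRingHom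

theorem algebraMap_phiT (t : F) (a : Polynomial K) : algebraMap K⟮t⟯ F (phiT K t a) = aeval t a := by
  have := Polynomial.aeval_algebraMap_apply F (AdjoinSimple.gen K t) a
  rw [AdjoinSimple.algebraMap_gen] at this
  exact this.symm

theorem phiT_injective {t : F} (ht : Transcendental K t) : Function.Injective (phiT K t) := by
  rw [injective_iff_map_eq_zero]
  intro a ha
  have h := congrArg (algebraMap K⟮t⟯ F) ha
  rw [algebraMap_phiT, map_zero] at h
  exact (_root_.transcendental_iff.mp ht) a h

theorem aevalAeval_eq_aeval_map (t y : F) (p : Polynomial (Polynomial K)) :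
    aevalAeval t y p = aeval y (p.map (phiT K t)) := by
  induction p using Polynomial.induction_on' with
  | add p q hp hq => rw [map_add, hp, hq, Polynomial.map_add, map_add]
  | monomial n a =>
    rw [← C_mul_X_pow_eq_monomial, map_mul, aevalAeval_C, map_pow, aevalAeval_Y, Polynomial.map_mul,
      Polynomial.map_pow, map_C, map_X, map_mul, map_pow, aeval_C, aeval_X, algebraMap_phiT]

/-- clearing denominators, with a multiplicative condition on the denominators -/
theorem exists_clear_denominators (t : F) (good : Polynomial K → Prop) (h1 : good 1)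
    (hmul : ∀ a b, good a → good b → good (a * b)) (h : Polynomial K⟮t⟯)
    (hh : ∀ i, ∃ a d : Polynomial K, good d ∧ phiT K t d * h.coeff i = phiT K t a) :
    ∃ (d : Polynomial K) (H : Polynomial (Polynomial K)), good d ∧
      H.map (phiT K t) = C (phiT K t d) * h := by
  classical
  choose a d hd had using hh
  refine ⟨∏ j ∈ h.support, d j,
    ∑ i ∈ h.support, monomial i (a i * ∏ j ∈ h.support.erase i, d j), ?_, ?_⟩
  · exact Finset.prod_induction _ good hmul h1 fun j _ => hd j
  · ext i
    rw [coeff_map, finsetSum_coeff, coeff_C_mul]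
    simp only [coeff_monomial]
    by_cases hi : i ∈ h.support
    · rw [Finset.sum_ite_eq' h.support i, if_pos hi, map_mul, ← had i,
        ← Finset.mul_prod_erase h.support d hi, map_mul]
      ring_nf
    · rw [Finset.sum_ite_eq' h.support i, if_neg hi, notMem_support_iff.mp hi]
      simp

variable [IsAlgClosed K] [CharZero K] [FF1 K F]

theorem val_aeval {v : Place K F} {t : F} (ht : OrdGE v 0 t) (a : Polynomial K) :
    OrdGE v 0 (aeval t a) ∧ val v (aeval t a) = a.eval (val v t) := by
  induction a using Polynomial.induction_on' with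
  | add p q hp hq =>
    rw [map_add, eval_add]
    exact ⟨hp.1.add hq.1, by rw [val_add hp.1 hq.1, hp.2, hq.2]⟩
  | monomial n c =>
    rw [aeval_monomial, eval_monomial]
    have h1 : OrdGE v 0 (t ^ n) := by simpa using ht.pow n
    refine ⟨by simpa using (OrdGE.algebraMap v c).mul h1, ?_⟩
    rw [val_mul (OrdGE.algebraMap v c) h1, val_algebraMap, val_pow ht]

theorem ord_aeval_eq_zero {v : Place K F} {t : F} (ht : OrdGE v 1 t) {a : Polynomial K}
    (ha : a.eval 0 ≠ 0) : aeval t a ≠ 0 ∧ v.ord (aeval t a) = 0 := by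
  have ht0 : OrdGE v 0 t := ht.mono zero_le_one
  obtain ⟨h1, h2⟩ := val_aeval ht0 a
  rw [(val_eq_zero_iff ht0).mpr ht] at h2
  exact (val_ne_zero_iff h1).mp (by rw [h2]; exact ha)

/-- a rational function in `t` regular at a place where `t` is a uniformizer has a denominator prime to `X`. -/
theorem exists_rep_of_regular {P : Place K F} {t : F} (ht : P.ord t = 1) {c : F} (hc : c ∈ K⟮t⟯)
    (hreg : OrdGE P 0 c) :
    ∃ a d : Polynomial K, d.eval 0 ≠ 0 ∧ c = aeval t a / aeval t d := by
  have ht1 : OrdGE P 1 t := Or.inr ht.ge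
  have ht0 : t ≠ 0 := Fermat.Agent.S24.FF.ne_zero_of_ord_ne_zero P (by omega)
  obtain ⟨r, s, hrs⟩ := (mem_adjoin_simple_iff K c).mp hc
  by_cases hc0 : c = 0
  · exact ⟨0, 1, by simp, by simp [hc0]⟩
  have hr0 : r ≠ 0 := by
    rintro rfl
    exact hc0 (by simp [hrs])
  have hs0 : s ≠ 0 := by
    rintro rfl
    exact hc0 (by simp [hrs])
  obtain ⟨r', hr, hr'⟩ := exists_eq_pow_rootMultiplicity_mul_and_not_dvd r hr0 0
  obtain ⟨s', hs, hs'⟩ := exists_eq_pow_rootMultiplicity_mul_and_not_dvd s hs0 0
  set i := rootMultiplicity 0 r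
  set j := rootMultiplicity 0 s
  rw [dvd_iff_isRoot, IsRoot.def] at hr' hs'
  rw [C_0, sub_zero] at hr hs
  obtain ⟨hr1, hr2⟩ := ord_aeval_eq_zero ht1 hr'
  obtain ⟨hs1, hs2⟩ := ord_aeval_eq_zero ht1 hs'
  have hc' : c = t ^ i * aeval t r' / (t ^ j * aeval t s') := by
    rw [hrs, hr, hs]; simp
  have hord : P.ord c = (i : ℤ) - j := by
    rw [hc', Fermat.Agent.S24.FF.ord_div P (mul_ne_zero (pow_ne_zero _ ht0) hr1)
      (mul_ne_zero (pow_ne_zero _ ht0) hs1), P.ord_mul (pow_ne_zero _ ht0) hr1,
      P.ord_mul (pow_ne_zero _ ht0) hs1, Fermat.Agent.S24.FF.ord_pow, Fermat.Agent.S24.FF.ord_pow, ht,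
      hr2, hs2]
    ring
  have hij : j ≤ i := by
    have := hreg.resolve_left hc0
    omega
  refine ⟨X ^ (i - j) * r', s', hs', ?_⟩
  rw [hc', map_mul, map_pow, aeval_X]
  have : t ^ i = t ^ (i - j) * t ^ j := by rw [← pow_add, Nat.sub_add_cancel hij]
  rw [this]
  field_simp

end Fermat.Agent.S27
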