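import Fermat.Agent.S27.B.ChartDef

/-! # S27 / B / ChartAn : from an analytic parametrisation `τ ↦ (τ, ỹ τ)` of the plane model to places and their analytic behaviour. -/

set_option autoImplicit false

namespace Fermat.Agent.S27

open AlgebraicCurve Fermat.Agent.S26 IntermediateField Polynomial Filter Topology

theorem evalEval_analyticAt {yt : ℂ → ℂ} {τ : ℂ} (hy : AnalyticAt ℂ yt τ)
    (p : Polynomial (Polynomial ℂ)) : AnalyticAt ℂ (fun s => p.evalEval s (yt s)) τ := by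
  have : (fun s => p.evalEval s (yt s))
      = fun s => ∑ i ∈ p.support, (p.coeff i).eval s * (yt s) ^ i := by
    funext s
    rw [← eval₂_evalRingHom, eval₂_eq_sum, sum_def]
    rfl
  rw [this]
  refine Finset.analyticAt_fun_sum _ fun i _ => ?_
  refine AnalyticAt.mul ?_ (hy.pow i)
  have : (fun s => (p.coeff i).eval s) = fun s => aeval s (p.coeff i) := by
    funext s; simp
  rw [this]
  exact AnalyticAt.aeval_polynomial analyticAt_id _

theorem eventually_eval_ne_zero {d : Polynomial ℂ} (hd : d ≠ 0) (τ : ℂ) :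
    ∀ᶠ s in 𝓝[≠] τ, d.eval s ≠ 0 := by
  have hfin : {s : ℂ | d.eval s = 0}.Finite := by
    refine (Multiset.finite_toSet d.roots).subset fun s hs => ?_
    simpa [mem_roots hd] using hs
  have hcl : IsClosed ({s : ℂ | d.eval s = 0} \ {τ}) := (hfin.subset Set.sdiff_subset).isClosed
  have : ({s : ℂ | d.eval s = 0} \ {τ})ᶜ ∈ 𝓝 τ := hcl.isOpen_compl.mem_nhds (by simp)
  filter_upwards [nhdsWithin_le_nhds this, self_mem_nhdsWithin] with s hs hs'
  intro h0
  exact hs ⟨h0, hs'⟩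

/-- Analytic parametrisation data. -/
structure ChartData (F : Type*) [Field F] [Algebra ℂ F] where
  t : F
  y : F
  r : ℝ
  r_pos : 0 < r
  yt : ℂ → ℂ
  yt_an : AnalyticOnNhd ℂ yt (Metric.ball 0 r)
  ker : ∀ p : Polynomial (Polynomial ℂ), aevalAeval t y p = 0 →
    ∀ τ ∈ Metric.ball (0 : ℂ) r, p.evalEval τ (yt τ) = 0
  frac : ∀ f : F, ∃ (p : Polynomial (Polynomial ℂ)) (d : Polynomial ℂ), d ≠ 0 ∧
    f = aevalAeval t y p / aeval t d
  ht : Transcendental ℂ t

namespace ChartData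

variable {F : Type*} [Field F] [Algebra ℂ F] (D : ChartData F)

/-- evaluation of a polynomial along the parametrisation -/
noncomputable def E (p : Polynomial (Polynomial ℂ)) (τ : ℂ) : ℂ := p.evalEval τ (D.yt τ)

theorem E_analyticAt (p : Polynomial (Polynomial ℂ)) {τ : ℂ} (hτ : τ ∈ Metric.ball (0 : ℂ) D.r) :
    AnalyticAt ℂ (D.E p) τ := evalEval_analyticAt (D.yt_an τ hτ) p

theorem aeval_ne_zero {d : Polynomial ℂ} (hd : d ≠ 0) : aeval D.t d ≠ 0 := fun h =>
  hd ((_root_.transcendental_iff.mp D.ht) d h)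

/-- a chosen numerator -/
noncomputable def num (f : F) : Polynomial (Polynomial ℂ) := (D.frac f).choose
/-- a chosen denominator -/
noncomputable def den (f : F) : Polynomial ℂ := (D.frac f).choose_spec.choose

theorem den_ne_zero (f : F) : D.den f ≠ 0 := (D.frac f).choose_spec.choose_spec.1

theorem eq_num_div_den (f : F) : f = aevalAeval D.t D.y (D.num f) / aeval D.t (D.den f) :=
  (D.frac f).choose_spec.choose_spec.2

/-- the meromorphic function attached to `f`. -/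
noncomputable def fn (f : F) (τ : ℂ) : ℂ := D.E (D.num f) τ / (D.den f).eval τ

theorem eval_analyticAt (d : Polynomial ℂ) (τ : ℂ) : AnalyticAt ℂ (fun s => d.eval s) τ := by
  have : (fun s => d.eval s) = fun s => aeval s d := by
    funext s; simp
  rw [this]
  exact AnalyticAt.aeval_polynomial analyticAt_id _

theorem fn_meromorphicAt (f : F) {τ : ℂ} (hτ : τ ∈ Metric.ball (0 : ℂ) D.r) :
    MeromorphicAt (D.fn f) τ :=
  (D.E_analyticAt _ hτ).meromorphicAt.div (eval_analyticAt _ τ).meromorphicAt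

theorem eventually_mem_ball {τ : ℂ} (hτ : τ ∈ Metric.ball (0 : ℂ) D.r) :
    ∀ᶠ s in 𝓝[≠] τ, s ∈ Metric.ball (0 : ℂ) D.r :=
  nhdsWithin_le_nhds (Metric.isOpen_ball.mem_nhds hτ)

/-- any representation of `f` as a fraction computes `fn f`. -/
theorem fn_eventuallyEq {f : F} {p : Polynomial (Polynomial ℂ)} {d : Polynomial ℂ} (hd : d ≠ 0)
    (hf : f = aevalAeval D.t D.y p / aeval D.t d) {τ : ℂ} (hτ : τ ∈ Metric.ball (0 : ℂ) D.r) :
    D.fn f =ᶠ[𝓝[≠] τ] fun s => D.E p s / d.eval s := by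
  have h1 := D.eq_num_div_den f
  have hd' := D.aeval_ne_zero hd
  have hd'' := D.aeval_ne_zero (D.den_ne_zero f)
  have hker : aevalAeval D.t D.y (D.num f * C d - p * C (D.den f)) = 0 := by
    rw [map_sub, map_mul, map_mul, aevalAeval_C, aevalAeval_C, sub_eq_zero]
    have h2 := hf.symm.trans h1
    rw [div_eq_div_iff hd' hd''] at h2
    linear_combination -h2
  filter_upwards [D.eventually_mem_ball hτ, eventually_eval_ne_zero hd τ,
    eventually_eval_ne_zero (D.den_ne_zero f) τ] with s hs h2 h3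
  have := D.ker _ hker s hs
  rw [evalEval_sub, evalEval_mul, evalEval_mul, evalEval_C, evalEval_C, sub_eq_zero] at this
  simp only [fn, E]
  field_simp
  linear_combination this

theorem fn_add (f g : F) {τ : ℂ} (hτ : τ ∈ Metric.ball (0 : ℂ) D.r) :
    D.fn (f + g) =ᶠ[𝓝[≠] τ] D.fn f + D.fn g := by
  have hdf := D.den_ne_zero f
  have hdg := D.den_ne_zero g
  have h : f + g = aevalAeval D.t D.y (D.num f * C (D.den g) + D.num g * C (D.den f))
      / aeval D.t (D.den f * D.den g) := by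
    have h1 := D.aeval_ne_zero hdf
    have h2 := D.aeval_ne_zero hdg
    conv_lhs => rw [D.eq_num_div_den f, D.eq_num_div_den g]
    rw [map_add, map_mul, map_mul, aevalAeval_C, aevalAeval_C, map_mul]
    field_simp
  filter_upwards [D.fn_eventuallyEq (mul_ne_zero hdf hdg) h hτ, eventually_eval_ne_zero hdf τ,
    eventually_eval_ne_zero hdg τ] with s hs h2 h3
  rw [hs]
  simp only [Pi.add_apply, fn, E, evalEval_add, evalEval_mul, evalEval_C, eval_mul]
  field_simp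

theorem fn_mul (f g : F) {τ : ℂ} (hτ : τ ∈ Metric.ball (0 : ℂ) D.r) :
    D.fn (f * g) =ᶠ[𝓝[≠] τ] D.fn f * D.fn g := by
  have hdf := D.den_ne_zero f
  have hdg := D.den_ne_zero g
  have h : f * g = aevalAeval D.t D.y (D.num f * D.num g) / aeval D.t (D.den f * D.den g) := by
    conv_lhs => rw [D.eq_num_div_den f, D.eq_num_div_den g]
    rw [map_mul, map_mul]
    field_simp
  filter_upwards [D.fn_eventuallyEq (mul_ne_zero hdf hdg) h hτ] with s hs
  rw [hs]
  simp only [Pi.mul_apply, fn, E, evalEval_mul, eval_mul]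
  field_simp

theorem fn_algebraMap (c : ℂ) {τ : ℂ} (hτ : τ ∈ Metric.ball (0 : ℂ) D.r) :
    D.fn (algebraMap ℂ F c) =ᶠ[𝓝[≠] τ] fun _ => c := by
  have h : algebraMap ℂ F c = aevalAeval D.t D.y (C (C c)) / aeval D.t (1 : Polynomial ℂ) := by
    simp
  filter_upwards [D.fn_eventuallyEq one_ne_zero h hτ] with s hs
  rw [hs]
  simp [E]

theorem fn_t {τ : ℂ} (hτ : τ ∈ Metric.ball (0 : ℂ) D.r) :
    D.fn D.t =ᶠ[𝓝[≠] τ] fun s => s := by
  have h : D.t = aevalAeval (R := ℂ) D.t D.y (C X) / aeval D.t (1 : Polynomial ℂ) := by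
    simp
  filter_upwards [D.fn_eventuallyEq one_ne_zero h hτ] with s hs
  rw [hs]
  simp [E, evalEval_C]

theorem fn_y {τ : ℂ} (hτ : τ ∈ Metric.ball (0 : ℂ) D.r) :
    D.fn D.y =ᶠ[𝓝[≠] τ] D.yt := by
  have h : D.y = aevalAeval (R := ℂ) D.t D.y Polynomial.X / aeval D.t (1 : Polynomial ℂ) := by
    simp
  filter_upwards [D.fn_eventuallyEq one_ne_zero h hτ] with s hs
  rw [hs]
  simp [E]

theorem fn_neg (f : F) {τ : ℂ} (hτ : τ ∈ Metric.ball (0 : ℂ) D.r) :
    D.fn (-f) =ᶠ[𝓝[≠] τ] - D.fn f := by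
  have h1 := D.fn_mul (algebraMap ℂ F (-1)) f hτ
  have h2 := D.fn_algebraMap (-1) hτ
  have : algebraMap ℂ F (-1) * f = -f := by simp
  rw [this] at h1
  filter_upwards [h1, h2] with s hs hs2
  rw [hs, Pi.mul_apply, hs2]
  simp

theorem fn_sub (f g : F) {τ : ℂ} (hτ : τ ∈ Metric.ball (0 : ℂ) D.r) :
    D.fn (f - g) =ᶠ[𝓝[≠] τ] D.fn f - D.fn g := by
  have h1 := D.fn_add f (-g) hτ
  have h2 := D.fn_neg g hτ
  rw [← sub_eq_add_neg] at h1
  filter_upwards [h1, h2] with s hs hs2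
  rw [hs]
  simp [hs2, sub_eq_add_neg]

theorem order_ne_top {f : F} (hf : f ≠ 0) {τ : ℂ} (hτ : τ ∈ Metric.ball (0 : ℂ) D.r) :
    meromorphicOrderAt (D.fn f) τ ≠ ⊤ := by
  intro htop
  rw [meromorphicOrderAt_eq_top_iff] at htop
  have h1 := D.fn_mul f f⁻¹ hτ
  rw [mul_inv_cancel₀ hf] at h1
  have h2 := D.fn_algebraMap 1 hτ
  rw [map_one] at h2
  have : ∀ᶠ s in 𝓝[≠] τ, False := by
    filter_upwards [htop, h1, h2] with s hs hs1 hs2
    rw [hs2] at hs1
    simp [hs] at hs1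
  exact (this.exists).elim fun _ h => h

/-- the order function at `τ`. -/
noncomputable def w (τ : ℂ) (f : F) : ℤ := (meromorphicOrderAt (D.fn f) τ).untop₀

theorem coe_w {f : F} (hf : f ≠ 0) {τ : ℂ} (hτ : τ ∈ Metric.ball (0 : ℂ) D.r) :
    ((D.w τ f : ℤ) : WithTop ℤ) = meromorphicOrderAt (D.fn f) τ :=
  WithTop.coe_untop₀_of_ne_top (D.order_ne_top hf hτ)

theorem w_mul {τ : ℂ} (hτ : τ ∈ Metric.ball (0 : ℂ) D.r) (f g : F) (hf : f ≠ 0) (hg : g ≠ 0) :
    D.w τ (f * g) = D.w τ f + D.w τ g := by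
  have h := meromorphicOrderAt_mul (D.fn_meromorphicAt f hτ) (D.fn_meromorphicAt g hτ)
  rw [← meromorphicOrderAt_congr (D.fn_mul f g hτ), ← D.coe_w hf hτ, ← D.coe_w hg hτ,
    ← D.coe_w (mul_ne_zero hf hg) hτ, ← WithTop.coe_add] at h
  exact WithTop.coe_injective h

theorem w_add {τ : ℂ} (hτ : τ ∈ Metric.ball (0 : ℂ) D.r) (f g : F) (hf : f ≠ 0) (hg : g ≠ 0)
    (hfg : f + g ≠ 0) : min (D.w τ f) (D.w τ g) ≤ D.w τ (f + g) := by
  have h := meromorphicOrderAt_add (D.fn_meromorphicAt f hτ) (D.fn_meromorphicAt g hτ)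
  rw [← meromorphicOrderAt_congr (D.fn_add f g hτ), ← D.coe_w hf hτ, ← D.coe_w hg hτ,
    ← D.coe_w hfg hτ, ← WithTop.coe_min] at h
  exact WithTop.coe_le_coe.mp h

theorem w_algebraMap {τ : ℂ} (hτ : τ ∈ Metric.ball (0 : ℂ) D.r) (c : ℂ) (hc : c ≠ 0) :
    D.w τ (algebraMap ℂ F c) = 0 := by
  classical
  unfold w
  rw [meromorphicOrderAt_congr (D.fn_algebraMap c hτ), meromorphicOrderAt_const]
  simp [hc]

theorem w_t_sub {τ : ℂ} (hτ : τ ∈ Metric.ball (0 : ℂ) D.r) :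
    D.w τ (D.t - algebraMap ℂ F τ) = 1 := by
  unfold w
  have h : D.fn (D.t - algebraMap ℂ F τ) =ᶠ[𝓝[≠] τ] (· - τ) := by
    filter_upwards [D.fn_sub D.t (algebraMap ℂ F τ) hτ, D.fn_t hτ, D.fn_algebraMap τ hτ]
      with s h1 h2 h3
    rw [h1]
    simp [h2, h3]
  rw [meromorphicOrderAt_congr h, meromorphicOrderAt_id_sub_const]
  rfl

theorem t_sub_ne_zero (τ : ℂ) : D.t - algebraMap ℂ F τ ≠ 0 := by
  intro h
  rw [sub_eq_zero] at h
  exact D.ht (h ▸ isAlgebraic_algebraMap τ)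

theorem exists_place {τ : ℂ} (hτ : τ ∈ Metric.ball (0 : ℂ) D.r) :
    ∃ v : Place ℂ F, ∀ f : F, f ≠ 0 → v.ord f = D.w τ f := by
  obtain ⟨v, c, hc, hv⟩ := Fermat.Agent.S24.FF.exists_place_of_ordFun (K := ℂ) (D.w τ)
    (D.w_mul hτ) (D.w_add hτ) (D.w_algebraMap hτ)
    ⟨_, D.t_sub_ne_zero τ, by rw [D.w_t_sub hτ]; exact one_ne_zero⟩
  have h1 := hv _ (D.t_sub_ne_zero τ)
  rw [D.w_t_sub hτ] at h1
  have hc1 : (c : ℤ) = 1 := by
    have : (c : ℤ) ∣ 1 := ⟨_, h1⟩
    exact Int.eq_one_of_dvd_one (by positivity) this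
  refine ⟨v, fun f hf => ?_⟩
  rw [hv f hf, hc1, one_mul]

open Classical in
/-- the place attached to the parameter `τ`. -/
noncomputable def pt (τ : ℂ) : Place ℂ F :=
  if hτ : τ ∈ Metric.ball (0 : ℂ) D.r then (D.exists_place hτ).choose
  else (D.exists_place (Metric.mem_ball_self D.r_pos)).choose

theorem ord_pt {τ : ℂ} (hτ : τ ∈ Metric.ball (0 : ℂ) D.r) {f : F} (hf : f ≠ 0) :
    (D.pt τ).ord f = D.w τ f := by
  unfold pt
  rw [dif_pos hτ]
  exact (D.exists_place hτ).choose_spec f hf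

theorem coe_ord_pt {τ : ℂ} (hτ : τ ∈ Metric.ball (0 : ℂ) D.r) {f : F} (hf : f ≠ 0) :
    (((D.pt τ).ord f : ℤ) : WithTop ℤ) = meromorphicOrderAt (D.fn f) τ := by
  rw [D.ord_pt hτ hf, D.coe_w hf hτ]

variable [FF1 ℂ F]

theorem tendsto_fn {τ : ℂ} (hτ : τ ∈ Metric.ball (0 : ℂ) D.r) {f : F} (hf : OrdGE (D.pt τ) 0 f) :
    Tendsto (D.fn f) (𝓝[≠] τ) (𝓝 (val (D.pt τ) f)) := by
  have h := val_spec hf
  set c := val (D.pt τ) f with hc
  have hsub := D.fn_sub f (algebraMap ℂ F c) hτ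
  have hcc := D.fn_algebraMap c hτ
  have h0 : Tendsto (D.fn (f - algebraMap ℂ F c)) (𝓝[≠] τ) (𝓝 0) := by
    rcases h with h | h
    · rw [h]
      have := D.fn_algebraMap 0 hτ
      rw [map_zero] at this
      exact (tendsto_congr' this).mpr tendsto_const_nhds
    · have hne : f - algebraMap ℂ F c ≠ 0 :=
        Fermat.Agent.S24.FF.ne_zero_of_ord_ne_zero (D.pt τ) (by omega)
      apply tendsto_zero_of_meromorphicOrderAt_pos
      rw [← D.coe_ord_pt hτ hne]
      exact_mod_cast (by omega : 0 < (D.pt τ).ord (f - algebraMap ℂ F c))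
  have : D.fn f =ᶠ[𝓝[≠] τ] fun s => D.fn (f - algebraMap ℂ F c) s + c := by
    filter_upwards [hsub, hcc] with s h1 h2
    rw [h1]
    simp [h2]
  rw [tendsto_congr' this]
  simpa using h0.add_const c

omit [FF1 ℂ F] in
theorem ordGE_of_analyticAt {τ : ℂ} (hτ : τ ∈ Metric.ball (0 : ℂ) D.r) {f : F}
    (h : 0 ≤ meromorphicOrderAt (D.fn f) τ) : OrdGE (D.pt τ) 0 f := by
  by_cases hf : f = 0
  · exact Or.inl hf
  · right
    rw [← D.coe_ord_pt hτ hf] at h
    exact_mod_cast h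

theorem val_eventuallyEq {τ : ℂ} (hτ : τ ∈ Metric.ball (0 : ℂ) D.r) (f : F) :
    (fun s => val (D.pt s) f) =ᶠ[𝓝[≠] τ] D.fn f := by
  filter_upwards [D.eventually_mem_ball hτ, (D.fn_meromorphicAt f hτ).eventually_analyticAt]
    with s hs han
  have hreg := D.ordGE_of_analyticAt hs han.meromorphicOrderAt_nonneg
  have h1 := D.tendsto_fn hs hreg
  have h2 : Tendsto (D.fn f) (𝓝[≠] s) (𝓝 (D.fn f s)) :=
    han.continuousAt.tendsto.mono_left nhdsWithin_le_nhds
  exact tendsto_nhds_unique h1 h2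

theorem analyticAt_val {τ : ℂ} (hτ : τ ∈ Metric.ball (0 : ℂ) D.r) {f : F}
    (hf : OrdGE (D.pt τ) 0 f) : AnalyticAt ℂ (fun s => val (D.pt s) f) τ := by
  have hev := D.val_eventuallyEq hτ f
  have hm : MeromorphicAt (fun s => val (D.pt s) f) τ := (D.fn_meromorphicAt f hτ).congr hev.symm
  apply hm.analyticAt
  rw [continuousAt_iff_punctured_nhds]
  exact (tendsto_congr' hev).mpr (D.tendsto_fn hτ hf)

theorem analyticOrderAt_val {τ : ℂ} (hτ : τ ∈ Metric.ball (0 : ℂ) D.r) {f : F} (hf0 : f ≠ 0)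
    (hf : 0 ≤ (D.pt τ).ord f) :
    analyticOrderAt (fun s => val (D.pt s) f) τ = (((D.pt τ).ord f).toNat : ℕ∞) := by
  have han := D.analyticAt_val hτ (Or.inr hf)
  have h1 := han.meromorphicOrderAt_eq
  rw [meromorphicOrderAt_congr (D.val_eventuallyEq hτ f), ← D.coe_ord_pt hτ hf0] at h1
  cases h : analyticOrderAt (fun s => val (D.pt s) f) τ with
  | top => rw [h] at h1; simp at h1
  | coe n =>
    rw [h] at h1
    simp only [ENat.map_natCast] at h1
    have h2 : (D.pt τ).ord f = (n : ℤ) := by exact_mod_cast h1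
    rw [h2]
    simp

/-- the value of `y` at `pt τ`. -/
theorem val_y {τ : ℂ} (hτ : τ ∈ Metric.ball (0 : ℂ) D.r) :
    OrdGE (D.pt τ) 0 D.y ∧ val (D.pt τ) D.y = D.yt τ := by
  have han := D.yt_an τ hτ
  have hreg : OrdGE (D.pt τ) 0 D.y := by
    apply D.ordGE_of_analyticAt hτ
    rw [meromorphicOrderAt_congr (D.fn_y hτ)]
    exact han.meromorphicOrderAt_nonneg
  refine ⟨hreg, ?_⟩
  have h1 := D.tendsto_fn hτ hreg
  rw [tendsto_congr' (D.fn_y hτ)] at h1
  exact tendsto_nhds_unique h1 (han.continuousAt.tendsto.mono_left nhdsWithin_le_nhds)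

/-- the chart attached to the data. -/
noncomputable def toChart : Chart F where
  t := D.t
  r := D.r
  r_pos := D.r_pos
  pt := D.pt
  ord_t τ hτ := by rw [D.ord_pt hτ (D.t_sub_ne_zero τ), D.w_t_sub hτ]
  analytic _ _ hτ hf := D.analyticAt_val hτ hf
  order _ hf0 _ hτ hf := D.analyticOrderAt_val hτ hf0 hf

end ChartData

end Fermat.Agent.S27
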