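import Fermat.Agent.S27.A.Deriv

/-! # S27 / B / ChartDef : the definition of a holomorphic chart on the set of places of `F/ℂ`. -/

set_option autoImplicit false

namespace Fermat.Agent.S27

open AlgebraicCurve Fermat.Agent.S26 IntermediateField

/-- A holomorphic chart on the places of `F/ℂ`. -/
structure Chart (F : Type*) [Field F] [Algebra ℂ F] where
  t : F
  r : ℝ
  r_pos : 0 < r
  pt : ℂ → Place ℂ F
  ord_t : ∀ τ ∈ Metric.ball (0 : ℂ) r, (pt τ).ord (t - algebraMap ℂ F τ) = 1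
  analytic : ∀ f : F, ∀ τ ∈ Metric.ball (0 : ℂ) r, OrdGE (pt τ) 0 f →
    AnalyticAt ℂ (fun s => val (pt s) f) τ
  order : ∀ f : F, f ≠ 0 → ∀ τ ∈ Metric.ball (0 : ℂ) r, 0 ≤ (pt τ).ord f →
    analyticOrderAt (fun s => val (pt s) f) τ = (((pt τ).ord f).toNat : ℕ∞)

end Fermat.Agent.S27
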