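import Fermat.Agent.S27.B.Triple
import Fermat.Agent.S27.Gen.LocalHom

/-! # S27 / B / Exp  (TASKS S27/B4*): the exponential map `ℂ^g → Pic⁰`.

* B4a `exists_local_exp`.  Fix a good tuple of charts `c⁰` (`exists_good`, `exists_chart`).  By `abel_local_surj` choose for small `v` some small `s⁰ v` with
  `∑ i, (c⁰ i).abel B (s⁰ v i) = v`, and put `e v := ∑ i, pq ((c⁰ i).pt (s⁰ v i)) ((c⁰ i).pt 0)`.
  *Universality*: let `c` be any good tuple of charts.  Choose good tuples `c''`, `c'''` whose centres avoid the centres of `c`, `c⁰` and of each other.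
  `triple_lemma` for `(c, c''', c'')` with `s''' = 0`: `A_c(s) + A_{c''}(s'') = 0` as soon as `Φ_c(s) + Φ_{c''}(s'') = 0` (all small); the same for `(c⁰, c''', c'')`.
  Given small `s`, `v := Φ_c(s)` (small by continuity); pick small `s''` with `Φ_{c''}(s'') = -v`: `A_c(s) = - A_{c''}(s'') = A_{c⁰}(s⁰ v) = e v`.
  *Additivity*: `triple_lemma` for `(c⁰, c', c'')` (pairwise disjoint good tuples): `e v + A_{c'}(s' w) + A_{c''}(s''(-v-w)) = 0`; by universality
  `A_{c'}(s' w) = e w`, and `A_{c''}(s''(-v-w)) = e(-v-w)`; with `w = 0`... get `e(-v) = - e v`, hence `e (v+w) = e v + e w`.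
  *Injectivity near 0*: `e v = 0` ⇒ `∑ pt (s⁰ v i) - ∑ pt 0 = div f`; `f ∈ L(∑ pt 0) = ℂ` (`mem_range_of_mem_LSpace_of_isGood`) so the two divisors are equal; the
  chart images are disjoint and `pt` is injective on each chart, so `s⁰ v = 0`, `v = 0`.
* B4b `exists_exp`: extend by `exists_addMonoidHom_of_local`; the chart formula: `γ τ := pq (c.pt τ) (c.pt 0) - φ (c.abel B τ)` is locally constant on the ball
  (at `τ₁`: good tuple through `c.pt τ₁` (`exists_good_through`), first chart `c.shift τ₁`, universality with `s = (σ, 0, …, 0)`, `Chart.abel_shift`), hence constant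
  (`IsPreconnected` of the ball), `γ 0 = 0`. -/

set_option autoImplicit false

namespace Fermat.Agent.S27

open AlgebraicCurve Fermat.Agent.S26 IntermediateField

variable {F : Type*} [Field F] [Algebra ℂ F] [FF1 ℂ F]

namespace LocalExp

variable (B : HolBasis F)

/-- `Φ_c(s)` -/
noncomputable def Phi (c : Fin (genusFF ℂ F) → Chart F) (s : Fin (genusFF ℂ F) → ℂ) :
    Fin (genusFF ℂ F) → ℂ := ∑ i, (c i).abel B (s i)

/-- `A_c(s)` -/
noncomputable def Acl (c : Fin (genusFF ℂ F) → Chart F) (s : Fin (genusFF ℂ F) → ℂ) :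
    Pic0 ℂ F := ∑ i, pq ((c i).pt (s i)) ((c i).pt 0)

/-- the centres form a good tuple -/
def Good (c : Fin (genusFF ℂ F) → Chart F) : Prop := IsGood B.x fun i => (c i).pt 0

theorem Phi_zero (c : Fin (genusFF ℂ F) → Chart F) : Phi B c 0 = 0 := by
  simp [Phi]

theorem Acl_zero (c : Fin (genusFF ℂ F) → Chart F) : Acl c 0 = 0 := by
  simp [Acl]

theorem Phi_small (c : Fin (genusFF ℂ F) → Chart F) (ε : ℝ) (hε : 0 < ε) :
    ∃ δ > 0, ∀ s : Fin (genusFF ℂ F) → ℂ, (∀ i, ‖s i‖ < δ) → ‖Phi B c s‖ < ε := by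
  have h1 : ∀ i, ∀ᶠ τ in nhds (0 : ℂ), ‖(c i).abel B τ‖ < ε / ((genusFF ℂ F : ℝ) + 1) := by
    intro i
    have hc : ContinuousAt ((c i).abel B) 0 :=
      ((c i).abel_continuousOn B).continuousAt (Metric.ball_mem_nhds 0 (c i).r_pos)
    have h2 := hc.norm
    have h3 : ‖(c i).abel B 0‖ < ε / ((genusFF ℂ F : ℝ) + 1) := by
      rw [Chart.abel_zero, norm_zero]; positivity
    exact h2.eventually (gt_mem_nhds h3)
  have h2 : ∀ᶠ τ in nhds (0 : ℂ), ∀ i, ‖(c i).abel B τ‖ < ε / ((genusFF ℂ F : ℝ) + 1) :=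
    Filter.eventually_all.mpr h1
  obtain ⟨δ, hδ, hball⟩ := Metric.eventually_nhds_iff_ball.mp h2
  refine ⟨δ, hδ, fun s hs => ?_⟩
  have h3 : ‖Phi B c s‖ ≤ ∑ _i : Fin (genusFF ℂ F), ε / ((genusFF ℂ F : ℝ) + 1) := by
    refine (norm_sum_le _ _).trans (Finset.sum_le_sum fun i _ => ?_)
    exact (hball (s i) (by simpa using hs i) i).le
  refine lt_of_le_of_lt h3 ?_
  rw [Finset.sum_const, Finset.card_univ, Fintype.card_fin, nsmul_eq_mul]
  have : (genusFF ℂ F : ℝ) * (ε / ((genusFF ℂ F : ℝ) + 1)) =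
      ε * ((genusFF ℂ F : ℝ) / ((genusFF ℂ F : ℝ) + 1)) := by ring
  rw [this]
  have h4 : (genusFF ℂ F : ℝ) / ((genusFF ℂ F : ℝ) + 1) < 1 := by
    rw [div_lt_one (by positivity)]; linarith
  nlinarith

theorem exists_good_charts (S : Finset (Place ℂ F)) :
    ∃ c : Fin (genusFF ℂ F) → Chart F, Good B c ∧ ∀ i, (c i).pt 0 ∉ S := by
  obtain ⟨R, hR, hRS⟩ := exists_good B.hx S
  have hch : ∀ i, ∃ c' : Chart F, c'.pt 0 = R i := fun i => by
    obtain ⟨c', -, h⟩ := exists_chart (R i) (unif (R i)) (ord_unif _)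
    exact ⟨c', h⟩
  choose c hc using hch
  have e : (fun i => (c i).pt 0) = R := funext hc
  refine ⟨c, ?_, fun i => by rw [hc]; exact hRS i⟩
  unfold Good
  rw [e]
  exact hR

theorem triple' (c1 c2 c3 : Fin (genusFF ℂ F) → Chart F) (h1 : Good B c1) (h2 : Good B c2)
    (h3 : Good B c3) (h12 : ∀ i j, (c1 i).pt 0 ≠ (c2 j).pt 0)
    (h13 : ∀ i j, (c1 i).pt 0 ≠ (c3 j).pt 0) (h23 : ∀ i j, (c2 i).pt 0 ≠ (c3 j).pt 0) :
    ∃ ε > 0, ∀ s1 s2 s3 : Fin (genusFF ℂ F) → ℂ, (∀ i, ‖s1 i‖ < ε) → (∀ i, ‖s2 i‖ < ε) →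
      (∀ i, ‖s3 i‖ < ε) → Phi B c1 s1 + Phi B c2 s2 + Phi B c3 s3 = 0 →
      Acl c1 s1 + Acl c2 s2 + Acl c3 s3 = 0 := by
  have hinj : Function.Injective
      fun p : Fin 3 × Fin (genusFF ℂ F) => ((![c1, c2, c3] : Fin 3 → _) p.1 p.2).pt 0 := by
    rintro ⟨a, i⟩ ⟨b, j⟩ h
    fin_cases a <;> fin_cases b
    · have hij : i = j := h1.1 h
      rw [hij]
    · exact absurd h (h12 i j)
    · exact absurd h (h13 i j)
    · exact absurd h.symm (h12 j i)
    · have hij : i = j := h2.1 h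
      rw [hij]
    · exact absurd h (h23 i j)
    · exact absurd h.symm (h13 j i)
    · exact absurd h.symm (h23 j i)
    · have hij : i = j := h3.1 h
      rw [hij]
  obtain ⟨ε, hε, -, h⟩ := triple_lemma B ![c1, c2, c3]
    (by intro a; fin_cases a; exacts [h1, h2, h3]) hinj
  refine ⟨ε, hε, fun s1 s2 s3 hs1 hs2 hs3 hsum => ?_⟩
  have := h ![s1, s2, s3] (by intro a i; fin_cases a; exacts [hs1 i, hs2 i, hs3 i])
    (by simpa [Fin.sum_univ_three, Phi] using hsum)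
  simpa [Fin.sum_univ_three, Acl] using this

open Classical in
/-- the finite set of centres -/
noncomputable def centres (c : Fin (genusFF ℂ F) → Chart F) : Finset (Place ℂ F) :=
  Finset.univ.image fun i => (c i).pt 0

theorem mem_centres (c : Fin (genusFF ℂ F) → Chart F) (i : Fin (genusFF ℂ F)) :
    (c i).pt 0 ∈ centres c := by
  classical
  exact Finset.mem_image_of_mem _ (Finset.mem_univ i)

theorem pairing (c c2 : Fin (genusFF ℂ F) → Chart F) (h : Good B c) (h2 : Good B c2)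
    (hd : ∀ i j, (c i).pt 0 ≠ (c2 j).pt 0) :
    ∃ η > 0, ∀ s s2 : Fin (genusFF ℂ F) → ℂ, (∀ i, ‖s i‖ < η) → (∀ i, ‖s2 i‖ < η) →
      Phi B c s + Phi B c2 s2 = 0 → Acl c s + Acl c2 s2 = 0 := by
  classical
  obtain ⟨c3, h3, hav⟩ := exists_good_charts B (centres c ∪ centres c2)
  have h13 : ∀ i j, (c i).pt 0 ≠ (c3 j).pt 0 := fun i j he =>
    hav j (by rw [← he]; exact Finset.mem_union_left _ (mem_centres c i))
  have h23 : ∀ i j, (c2 i).pt 0 ≠ (c3 j).pt 0 := fun i j he =>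
    hav j (by rw [← he]; exact Finset.mem_union_right _ (mem_centres c2 i))
  obtain ⟨ε, hε, ht⟩ := triple' B c c2 c3 h h2 h3 hd h13 h23
  refine ⟨ε, hε, fun s s2 hs hs2 hsum => ?_⟩
  have := ht s s2 0 hs hs2 (fun i => by simpa using hε) (by rw [Phi_zero, add_zero]; exact hsum)
  rwa [Acl_zero, add_zero] at this

theorem comparison (c c0 : Fin (genusFF ℂ F) → Chart F) (h : Good B c) (h0 : Good B c0) :
    ∃ η > 0, ∀ s s0 : Fin (genusFF ℂ F) → ℂ, (∀ i, ‖s i‖ < η) → (∀ i, ‖s0 i‖ < η) →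
      Phi B c s = Phi B c0 s0 → Acl c s = Acl c0 s0 := by
  classical
  obtain ⟨c2, h2, hav⟩ := exists_good_charts B (centres c ∪ centres c0)
  have hd1 : ∀ i j, (c i).pt 0 ≠ (c2 j).pt 0 := fun i j he =>
    hav j (by rw [← he]; exact Finset.mem_union_left _ (mem_centres c i))
  have hd2 : ∀ i j, (c0 i).pt 0 ≠ (c2 j).pt 0 := fun i j he =>
    hav j (by rw [← he]; exact Finset.mem_union_right _ (mem_centres c0 i))
  obtain ⟨η1, hη1, hp1⟩ := pairing B c c2 h h2 hd1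
  obtain ⟨η2, hη2, hp2⟩ := pairing B c0 c2 h0 h2 hd2
  obtain ⟨ε2, hε2, hsurj⟩ := abel_local_surj B c2 h2 (min η1 η2) (lt_min hη1 hη2)
  obtain ⟨δ, hδ, hsm⟩ := Phi_small B c ε2 hε2
  refine ⟨min δ (min η1 η2), lt_min hδ (lt_min hη1 hη2), fun s s0 hs hs0 heq => ?_⟩
  have hv : ‖-(Phi B c s)‖ < ε2 := by
    rw [norm_neg]
    exact hsm s (fun i => lt_of_lt_of_le (hs i) (min_le_left _ _))
  obtain ⟨s2, hs2, hΦ2⟩ := hsurj _ hv
  have hΦ2' : Phi B c2 s2 = -(Phi B c s) := hΦ2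
  have e1 := hp1 s s2
    (fun i => lt_of_lt_of_le (hs i) ((min_le_right _ _).trans (min_le_left _ _)))
    (fun i => lt_of_lt_of_le (hs2 i) (min_le_left _ _)) (by rw [hΦ2', add_neg_cancel])
  have e2 := hp2 s0 s2
    (fun i => lt_of_lt_of_le (hs0 i) ((min_le_right _ _).trans (min_le_right _ _)))
    (fun i => lt_of_lt_of_le (hs2 i) (min_le_right _ _)) (by rw [hΦ2', ← heq, add_neg_cancel])
  exact add_right_cancel (e1.trans e2.symm)

theorem sumDiv_apply_nonneg {ι : Type*} [Fintype ι] (P : ι → Place ℂ F) (v : Place ℂ F) :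
    0 ≤ sumDiv P v := by
  classical
  unfold sumDiv
  rw [Finsupp.finsetSum_apply]
  refine Finset.sum_nonneg fun i _ => ?_
  rw [Finsupp.single_apply]
  split_ifs <;> simp

theorem sumDiv_apply_pos {ι : Type*} [Fintype ι] (P : ι → Place ℂ F) (i : ι) :
    0 < sumDiv P (P i) := by
  classical
  unfold sumDiv
  rw [Finsupp.finsetSum_apply]
  refine Finset.sum_pos' (fun j _ => ?_) ⟨i, Finset.mem_univ i, by simp⟩
  rw [Finsupp.single_apply]
  split_ifs <;> simp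

theorem exists_of_sumDiv_apply_pos {ι : Type*} [Fintype ι] (Q : ι → Place ℂ F) (v : Place ℂ F)
    (h : 0 < sumDiv Q v) : ∃ j, Q j = v := by
  classical
  by_contra hne
  push Not at hne
  have : sumDiv Q v = 0 := by
    unfold sumDiv
    rw [Finsupp.finsetSum_apply]
    refine Finset.sum_eq_zero fun j _ => ?_
    rw [Finsupp.single_apply, if_neg (hne j)]
  omega

/-- injectivity of `A_c` near the centre of a good tuple -/
theorem eq_zero_of_Acl_eq_zero (c0 : Fin (genusFF ℂ F) → Chart F) (h0 : Good B c0) :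
    ∃ δ > 0, ∀ s : Fin (genusFF ℂ F) → ℂ, (∀ i, ‖s i‖ < δ) → Acl c0 s = 0 → s = 0 := by
  classical
  have hE : ∀ᶠ s in nhds (0 : ℂ), (∀ i j, i ≠ j → (c0 i).pt s ≠ (c0 j).pt 0) ∧
      ∀ i, s ∈ Metric.ball (0 : ℂ) (c0 i).r := by
    refine Filter.Eventually.and ?_ ?_
    · refine Filter.eventually_all.mpr fun i => Filter.eventually_all.mpr fun j => ?_
      by_cases hij : i = j
      · exact Filter.Eventually.of_forall fun s h => absurd hij h
      · obtain ⟨δ, hδ, hav⟩ := Chart.exists_avoid (c0 i) ((c0 j).pt 0) (fun he => hij (h0.1 he))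
        refine Metric.eventually_nhds_iff_ball.mpr ⟨δ, hδ, fun s hs _ => hav s (by simpa using hs)⟩
    · exact Filter.eventually_all.mpr fun i => Metric.ball_mem_nhds 0 (c0 i).r_pos
  obtain ⟨δ, hδ, hball⟩ := Metric.eventually_nhds_iff_ball.mp hE
  refine ⟨δ, hδ, fun s hs hA => ?_⟩
  have hprin := (sum_pq_eq_zero_iff (fun i => (c0 i).pt (s i)) (fun i => (c0 i).pt 0)).mp hA
  obtain ⟨f, hf0, hf⟩ := hprin
  have hfL : f ∈ LSpace (sumDiv fun i => (c0 i).pt 0) := by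
    refine Or.inr fun v => ?_
    have h1 := hf v
    rw [Finsupp.sub_apply] at h1
    have h2 := sumDiv_apply_nonneg (fun i => (c0 i).pt (s i)) v
    omega
  obtain ⟨a, rfl⟩ := mem_range_of_mem_LSpace_of_isGood B.hx h0 hfL
  have heq : ∀ v, sumDiv (fun i => (c0 i).pt (s i)) v = sumDiv (fun i => (c0 i).pt 0) v := by
    intro v
    have h1 := hf v
    rw [Finsupp.sub_apply, Fermat.Agent.S24.FF.ord_algebraMap] at h1
    omega
  funext i
  have h1 := sumDiv_apply_pos (fun i => (c0 i).pt (s i)) i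
  rw [heq] at h1
  obtain ⟨j, hj⟩ := exists_of_sumDiv_apply_pos _ _ h1
  have hsi := hball (s i) (by simpa using hs i)
  have hij : i = j := by
    by_contra hne
    exact hsi.1 i j hne hj.symm
  subst hij
  exact (c0 i).injOn (hsi.2 i) (c0 i).zero_mem hj.symm

end LocalExp

open LocalExp in
theorem exists_local_exp (B : HolBasis F) :
    ∃ (ε : ℝ) (e : (Fin (genusFF ℂ F) → ℂ) → Pic0 ℂ F), 0 < ε ∧
      (∀ v w, ‖v‖ < ε → ‖w‖ < ε → ‖v + w‖ < ε → e (v + w) = e v + e w) ∧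
      (∀ v, ‖v‖ < ε → e v = 0 → v = 0) ∧
      (∀ c : Fin (genusFF ℂ F) → Chart F, (IsGood B.x fun i => (c i).pt 0) →
        ∃ δ > 0, ∀ s : Fin (genusFF ℂ F) → ℂ, (∀ i, ‖s i‖ < δ) →
          ‖∑ i, (c i).abel B (s i)‖ < ε ∧
          e (∑ i, (c i).abel B (s i)) = ∑ i, pq ((c i).pt (s i)) ((c i).pt 0)) := by
  classical
  obtain ⟨c0, h0, -⟩ := exists_good_charts B ∅
  obtain ⟨η0, hη0, hself⟩ := comparison B c0 c0 h0 h0
  obtain ⟨δi, hδi, hinj0⟩ := eq_zero_of_Acl_eq_zero B c0 h0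
  obtain ⟨ε0, hε0, hsurj0⟩ := abel_local_surj B c0 h0 (min η0 δi) (lt_min hη0 hδi)
  choose! s0 hs0 using hsurj0
  set e : (Fin (genusFF ℂ F) → ℂ) → Pic0 ℂ F := fun v => Acl c0 (s0 v) with he
  -- universality
  have huniv : ∀ c, LocalExp.Good B c → ∀ ε' > 0, ∃ δ > 0, ∀ s : Fin (genusFF ℂ F) → ℂ,
      (∀ i, ‖s i‖ < δ) → ‖Phi B c s‖ < ε' ∧ e (Phi B c s) = Acl c s := by
    intro c hc ε' hε'
    obtain ⟨η, hη, hcmp⟩ := comparison B c c0 hc h0
    obtain ⟨ε1, hε1, hsurj1⟩ := abel_local_surj B c0 h0 (min η η0) (lt_min hη hη0)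
    obtain ⟨δ, hδ, hsm⟩ := Phi_small B c (min ε' (min ε0 ε1)) (lt_min hε' (lt_min hε0 hε1))
    refine ⟨min δ η, lt_min hδ hη, fun s hs => ?_⟩
    have hn := hsm s (fun i => lt_of_lt_of_le (hs i) (min_le_left _ _))
    refine ⟨lt_of_lt_of_le hn (min_le_left _ _), ?_⟩
    have hn0 : ‖Phi B c s‖ < ε0 :=
      lt_of_lt_of_le hn ((min_le_right _ _).trans (min_le_left _ _))
    have hn1 : ‖Phi B c s‖ < ε1 :=
      lt_of_lt_of_le hn ((min_le_right _ _).trans (min_le_right _ _))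
    obtain ⟨s1, hs1, hΦ1⟩ := hsurj1 _ hn1
    obtain ⟨hs0a, hs0b⟩ := hs0 _ hn0
    have e1 : Acl c0 (s0 (Phi B c s)) = Acl c0 s1 :=
      hself _ _ (fun i => lt_of_lt_of_le (hs0a i) (min_le_left _ _))
        (fun i => lt_of_lt_of_le (hs1 i) (min_le_right _ _)) (hs0b.trans hΦ1.symm)
    have e2 : Acl c s = Acl c0 s1 :=
      hcmp s s1 (fun i => lt_of_lt_of_le (hs i) (min_le_right _ _))
        (fun i => lt_of_lt_of_le (hs1 i) (min_le_left _ _)) hΦ1.symm
    exact e1.trans e2.symm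
  -- three pairwise disjoint good tuples
  obtain ⟨c1, h1, -⟩ := exists_good_charts B ∅
  obtain ⟨c2, h2, hav2⟩ := exists_good_charts B (centres c1)
  obtain ⟨c3, h3, hav3⟩ := exists_good_charts B (centres c1 ∪ centres c2)
  have h12 : ∀ i j, (c1 i).pt 0 ≠ (c2 j).pt 0 := fun i j he =>
    hav2 j (by rw [← he]; exact mem_centres c1 i)
  have h13 : ∀ i j, (c1 i).pt 0 ≠ (c3 j).pt 0 := fun i j he =>
    hav3 j (by rw [← he]; exact Finset.mem_union_left _ (mem_centres c1 i))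
  have h23 : ∀ i j, (c2 i).pt 0 ≠ (c3 j).pt 0 := fun i j he =>
    hav3 j (by rw [← he]; exact Finset.mem_union_right _ (mem_centres c2 i))
  obtain ⟨εT, hεT, hT⟩ := triple' B c1 c2 c3 h1 h2 h3 h12 h13 h23
  obtain ⟨δ1, hδ1, hu1⟩ := huniv c1 h1 1 one_pos
  obtain ⟨δ2, hδ2, hu2⟩ := huniv c2 h2 1 one_pos
  obtain ⟨δ3, hδ3, hu3⟩ := huniv c3 h3 1 one_pos
  obtain ⟨ε1, hε1, hsj1⟩ := abel_local_surj B c1 h1 (min εT δ1) (lt_min hεT hδ1)
  obtain ⟨ε2, hε2, hsj2⟩ := abel_local_surj B c2 h2 (min εT δ2) (lt_min hεT hδ2)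
  obtain ⟨ε3, hε3, hsj3⟩ := abel_local_surj B c3 h3 (min εT δ3) (lt_min hεT hδ3)
  set ε := min ε0 (min ε1 (min ε2 ε3)) with hεdef
  have hε : 0 < ε := lt_min hε0 (lt_min hε1 (lt_min hε2 hε3))
  have hle0 : ε ≤ ε0 := min_le_left _ _
  have hle1 : ε ≤ ε1 := (min_le_right _ _).trans (min_le_left _ _)
  have hle2 : ε ≤ ε2 := (min_le_right _ _).trans ((min_le_right _ _).trans (min_le_left _ _))
  have hle3 : ε ≤ ε3 := (min_le_right _ _).trans ((min_le_right _ _).trans (min_le_right _ _))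
  have hstar : ∀ v w, ‖v‖ < ε → ‖w‖ < ε → ‖v + w‖ < ε → e v + e w + e (-(v + w)) = 0 := by
    intro v w hv hw hvw
    obtain ⟨t1, ht1, hΦ1⟩ := hsj1 v (lt_of_lt_of_le hv hle1)
    obtain ⟨t2, ht2, hΦ2⟩ := hsj2 w (lt_of_lt_of_le hw hle2)
    obtain ⟨t3, ht3, hΦ3⟩ := hsj3 (-(v + w)) (by rw [norm_neg]; exact lt_of_lt_of_le hvw hle3)
    have hΦ1' : Phi B c1 t1 = v := hΦ1
    have hΦ2' : Phi B c2 t2 = w := hΦ2
    have hΦ3' : Phi B c3 t3 = -(v + w) := hΦ3
    have hA := hT t1 t2 t3 (fun i => lt_of_lt_of_le (ht1 i) (min_le_left _ _))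
      (fun i => lt_of_lt_of_le (ht2 i) (min_le_left _ _))
      (fun i => lt_of_lt_of_le (ht3 i) (min_le_left _ _))
      (by rw [hΦ1', hΦ2', hΦ3', add_neg_cancel])
    have a1 := (hu1 t1 (fun i => lt_of_lt_of_le (ht1 i) (min_le_right _ _))).2
    have a2 := (hu2 t2 (fun i => lt_of_lt_of_le (ht2 i) (min_le_right _ _))).2
    have a3 := (hu3 t3 (fun i => lt_of_lt_of_le (ht3 i) (min_le_right _ _))).2
    rw [hΦ1'] at a1
    rw [hΦ2'] at a2
    rw [hΦ3'] at a3
    rw [a1, a2, a3]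
    exact hA
  have he0 : e 0 = 0 := by
    have := (hu1 0 (fun i => by simpa using hδ1)).2
    rwa [Phi_zero, Acl_zero] at this
  have hneg : ∀ u, ‖u‖ < ε → e (-u) = - e u := by
    intro u hu
    have := hstar u 0 hu (by simpa using hε) (by simpa using hu)
    rw [he0, add_zero, add_zero] at this
    exact (neg_eq_of_add_eq_zero_right this).symm
  refine ⟨ε, e, hε, ?_, ?_, ?_⟩
  · intro v w hv hw hvw
    have h := hstar v w hv hw hvw
    rw [hneg _ hvw] at h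
    exact (sub_eq_zero.mp (by rw [sub_eq_add_neg]; exact h)).symm
  · intro v hv hev
    obtain ⟨hs0a, hs0b⟩ := hs0 v (lt_of_lt_of_le hv hle0)
    have hz := hinj0 (s0 v) (fun i => lt_of_lt_of_le (hs0a i) (min_le_right _ _)) hev
    rw [hz] at hs0b
    have : Phi B c0 0 = v := hs0b
    rw [← this, Phi_zero]
  · intro c hc
    exact huniv c hc ε hε

theorem exists_exp (hg : 0 < genusFF ℂ F) (B : HolBasis F) :
    ∃ φ : (Fin (genusFF ℂ F) → ℂ) →+ Pic0 ℂ F,
      (∃ ε > 0, ∀ v, ‖v‖ < ε → φ v = 0 → v = 0) ∧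
      (∀ c : Chart F, ∀ τ ∈ Metric.ball (0 : ℂ) c.r, φ (c.abel B τ) = pq (c.pt τ) (c.pt 0)) := by
  classical
  obtain ⟨ε, e, hε, hadd, hinj, huniv⟩ := exists_local_exp B
  obtain ⟨φ, hφ⟩ := exists_addMonoidHom_of_local e ε hε hadd
  refine ⟨φ, ⟨ε, hε, fun v hv h0 => hinj v hv (by rw [← hφ v hv]; exact h0)⟩, ?_⟩
  intro c τ hτ
  set γ : ℂ → Pic0 ℂ F := fun τ => pq (c.pt τ) (c.pt 0) - φ (c.abel B τ) with hγ
  -- `γ` is locally constant
  have hloc : ∀ τ₁ ∈ Metric.ball (0 : ℂ) c.r, ∀ᶠ s in nhds τ₁, γ s = γ τ₁ := by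
    intro τ₁ hτ₁
    set i0 : Fin (genusFF ℂ F) := ⟨0, hg⟩ with hi0
    obtain ⟨R, hR, hR0, -⟩ := exists_good_through B.hx ∅ (c.pt τ₁) hg
    have hch : ∀ i, ∃ c' : Chart F, c'.pt 0 = R i := fun i => by
      obtain ⟨c', -, h⟩ := exists_chart (R i) (unif (R i)) (ord_unif _)
      exact ⟨c', h⟩
    choose c₁ hc₁ using hch
    set c' : Fin (genusFF ℂ F) → Chart F := fun i => if i = i0 then c.shift τ₁ hτ₁ else c₁ i
      with hc'
    have hc'i0 : c' i0 = c.shift τ₁ hτ₁ := by simp [hc']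
    have hc'ne : ∀ i, i ≠ i0 → c' i = c₁ i := fun i hi => by simp [hc', hi]
    have hc'0 : (fun i => (c' i).pt 0) = R := by
      funext i
      by_cases hi : i = i0
      · subst hi
        rw [hc'i0, hR0]
        show c.pt (τ₁ + 0) = c.pt τ₁
        rw [add_zero]
      · rw [hc'ne i hi, hc₁]
    have hgood : IsGood B.x fun i => (c' i).pt 0 := by rw [hc'0]; exact hR
    obtain ⟨δ, hδ, hu⟩ := huniv c' hgood
    have hr : 0 < c.r - ‖τ₁‖ := by simpa using hτ₁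
    have key : ∀ σ : ℂ, ‖σ‖ < δ → ‖σ‖ < c.r - ‖τ₁‖ → γ (τ₁ + σ) = γ τ₁ := by
      intro σ h1 h2
      set s : Fin (genusFF ℂ F) → ℂ := fun i => if i = i0 then σ else 0 with hs
      have hsi0 : s i0 = σ := by simp [hs]
      have hsne : ∀ i, i ≠ i0 → s i = 0 := fun i hi => by simp [hs, hi]
      have hsδ : ∀ i, ‖s i‖ < δ := by
        intro i
        by_cases hi : i = i0
        · rw [hi, hsi0]; exact h1
        · rw [hsne i hi]; simpa using hδ
      obtain ⟨hn, he⟩ := hu s hsδ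
      have hsumA : ∑ i, (c' i).abel B (s i) = c.abel B (τ₁ + σ) - c.abel B τ₁ := by
        rw [Finset.sum_eq_single i0]
        · rw [hc'i0, hsi0, Chart.abel_shift c B hτ₁ h2]
        · intro i _ hi
          rw [hsne i hi, Chart.abel_zero]
        · intro h; exact absurd (Finset.mem_univ _) h
      have hsumP : ∑ i, pq ((c' i).pt (s i)) ((c' i).pt 0) = pq (c.pt (τ₁ + σ)) (c.pt τ₁) := by
        rw [Finset.sum_eq_single i0]
        · rw [hc'i0, hsi0]
          show pq (c.pt (τ₁ + σ)) (c.pt (τ₁ + 0)) = _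
          rw [add_zero]
        · intro i _ hi
          rw [hsne i hi, pq_self]
        · intro h; exact absurd (Finset.mem_univ _) h
      rw [hsumA] at hn he
      rw [hsumP, ← hφ _ hn, map_sub] at he
      have h3 := pq_add_pq (c.pt (τ₁ + σ)) (c.pt τ₁) (c.pt 0)
      simp only [hγ]
      rw [← h3, ← he]
      abel
    have hmin : 0 < min δ (c.r - ‖τ₁‖) := lt_min hδ hr
    filter_upwards [Metric.ball_mem_nhds τ₁ hmin] with x hx
    have hx' : ‖x - τ₁‖ < min δ (c.r - ‖τ₁‖) := by simpa [dist_eq_norm] using hx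
    have := key (x - τ₁) (lt_of_lt_of_le hx' (min_le_left _ _))
      (lt_of_lt_of_le hx' (min_le_right _ _))
    rwa [add_sub_cancel] at this
  -- hence constant on the ball
  let _ : TopologicalSpace (Pic0 ℂ F) := ⊥
  have : DiscreteTopology (Pic0 ℂ F) := ⟨rfl⟩
  have hcont : ContinuousOn γ (Metric.ball (0 : ℂ) c.r) := by
    intro x hx
    have h1 : ContinuousAt γ x :=
      (continuousAt_const (y := γ x)).congr ((hloc x hx).mono fun y hy => hy.symm)
    exact h1.continuousWithinAt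
  have hpre : IsPreconnected (Metric.ball (0 : ℂ) c.r) := (convex_ball 0 c.r).isPreconnected
  have hconst : γ τ = γ 0 := hpre.constant hcont hτ c.zero_mem
  have h0 : γ 0 = 0 := by simp [hγ]
  rw [h0] at hconst
  exact (sub_eq_zero.mp hconst).symm

end Fermat.Agent.S27
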