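import Fermat.Agent.S27.B.FibreStructure

/-! # S27 / B / FibreNear : consequences of `fibre_structure'`. -/

set_option autoImplicit false

namespace Fermat.Agent.S27

open AlgebraicCurve Fermat.Agent.S26 IntermediateField Filter Topology

variable {F : Type*} [Field F] [Algebra ℂ F] [FF1 ℂ F]

/-- the fibres of `g` over the points near `l₀`. -/
theorem fibre_near {g : F} (hg : Transcendental ℂ g) (c : Place ℂ F → Chart F)
    (hc : ∀ P, (c P).pt 0 = P) (ρ : Place ℂ F → ℝ) (hρ : ∀ P, 0 < ρ P ∧ ρ P ≤ (c P).r) (l₀ : ℂ) :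
    ∃ ε > 0, ∀ l : ℂ, ‖l - l₀‖ < ε →
      (∀ Q ∈ zeros ℂ (g - algebraMap ℂ F l), ∃ P ∈ zeros ℂ (g - algebraMap ℂ F l₀), ∃ τ : ℂ,
        ‖τ‖ < ρ P ∧ Q = (c P).pt τ) ∧
      (∀ P ∈ zeros ℂ (g - algebraMap ℂ F l₀), ∃ τ : ℂ, ‖τ‖ < ρ P ∧
        (c P).pt τ ∈ zeros ℂ (g - algebraMap ℂ F l)) := by
  have hf := Fermat.Agent.S24.FF.transcendental_sub_algebraMap ℂ hg l₀
  obtain ⟨ε, hε, h⟩ := fibre_structure' hf c (fun P _ => hc P) ρ (fun P _ => hρ P)
  refine ⟨ε, hε, fun l hl => ?_⟩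
  by_cases hw : l - l₀ = 0
  · have : l = l₀ := sub_eq_zero.mp hw
    subst this
    exact ⟨fun Q hQ => ⟨Q, hQ, 0, by simpa using (hρ Q).1, (hc Q).symm⟩,
      fun P hP => ⟨0, by simpa using (hρ P).1, by rw [hc P]; exact hP⟩⟩
  · obtain ⟨S, hS1, hS2, -, -⟩ := h (l - l₀) hw hl
    have heq : g - algebraMap ℂ F l₀ - algebraMap ℂ F (l - l₀) = g - algebraMap ℂ F l := by
      rw [map_sub]; ring
    rw [heq] at hS2
    refine ⟨fun Q hQ => ?_, fun P hP => ?_⟩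
    · obtain ⟨P, hP, τ, hτ, rfl⟩ := (hS2 Q).mp hQ
      exact ⟨P, hP, τ, (hS1 P hP).2 τ hτ, rfl⟩
    · have hcard := (hS1 P hP).1
      have hpos := mem_zeros.mp hP
      have hne : (S P).Nonempty := by
        rw [← Finset.card_pos]
        have : (0 : ℤ) < ((S P).card : ℤ) := by rw [hcard]; exact hpos
        exact_mod_cast this
      obtain ⟨τ, hτ⟩ := hne
      exact ⟨τ, (hS1 P hP).2 τ hτ, (hS2 _).mpr ⟨P, hP, τ, hτ, rfl⟩⟩

/-- zeros of `g - l` are zeros of `g⁻¹ - l⁻¹`. -/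
theorem mem_zeros_inv_sub {g : F} (hg : Transcendental ℂ g) {l : ℂ} (hl : l ≠ 0) {Q : Place ℂ F}
    (hQ : Q ∈ zeros ℂ (g - algebraMap ℂ F l)) : Q ∈ zeros ℂ (g⁻¹ - algebraMap ℂ F l⁻¹) := by
  have hg0 : g ≠ 0 := fun h => hg (h ▸ isAlgebraic_zero)
  have h1 : OrdGE Q 1 (g - algebraMap ℂ F l) := Or.inr (by have := mem_zeros.mp hQ; omega)
  have hval : val Q g = l := val_eq_of h1
  have hreg : OrdGE Q 0 g := by
    have := (h1.mono zero_le_one).add (OrdGE.algebraMap Q l)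
    simpa using this
  obtain ⟨_, hord⟩ := (val_ne_zero_iff hreg).mp (by rw [hval]; exact hl)
  have hinvreg : OrdGE Q 0 g⁻¹ := Or.inr (by rw [Place.ord_inv, hord]; simp)
  have h2 := val_spec hinvreg
  rw [val_inv hg0 hord, hval] at h2
  have hne : g⁻¹ - algebraMap ℂ F l⁻¹ ≠ 0 := by
    intro h
    exact (Fermat.Agent.S24.FF.transcendental_sub_algebraMap ℂ
      (Fermat.Agent.S24.FF.transcendental_inv ℂ hg) l⁻¹) (h ▸ isAlgebraic_zero)
  rw [mem_zeros]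
  have := h2.resolve_left hne
  omega

/-- every place is a pole of `g` or a zero of `g - g(Q)`. -/
theorem mem_zeros_sub_val {g : F} (hg : Transcendental ℂ g) {Q : Place ℂ F} (hQ : 0 ≤ Q.ord g) :
    Q ∈ zeros ℂ (g - algebraMap ℂ F (val Q g)) := by
  have h2 := val_spec (v := Q) (f := g) (Or.inr hQ)
  have hne : g - algebraMap ℂ F (val Q g) ≠ 0 := fun h =>
    (Fermat.Agent.S24.FF.transcendental_sub_algebraMap ℂ hg _) (h ▸ isAlgebraic_zero)
  rw [mem_zeros]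
  have := h2.resolve_left hne
  omega

end Fermat.Agent.S27
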