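import Fermat.Agent.S27.B.Chart
import Fermat.Agent.S27.A.RR
import Fermat.Agent.S27.Gen.EFold

/-! # S27 / B / FibreStructure : local structure of the fibres of `f : X → ℙ¹` near the fibre over `0`. -/

set_option autoImplicit false

namespace Fermat.Agent.S27

open AlgebraicCurve Fermat.Agent.S26 IntermediateField Filter Topology

variable {F : Type*} [Field F] [Algebra ℂ F] [FF1 ℂ F]

/-- a property which holds for all small positive `δ` -/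
theorem eventually_small {p : ℝ → Prop} (h : ∃ δ₀ > 0, ∀ δ, 0 < δ → δ ≤ δ₀ → p δ) :
    ∀ᶠ δ in 𝓝[>] (0 : ℝ), p δ := by
  obtain ⟨δ₀, hδ₀, h⟩ := h
  filter_upwards [Ioc_mem_nhdsGT hδ₀] with δ hδ
  exact h δ hδ.1 hδ.2

/-- counting lemma -/
theorem eq_of_card_eq_sum {α : Type*} [DecidableEq α] (T Z : Finset α) (o : α → ℤ) (hTZ : T ⊆ Z)
    (ho : ∀ a ∈ Z, 1 ≤ o a) (hsum : ∑ a ∈ Z, o a = T.card) : T = Z ∧ ∀ a ∈ Z, o a = 1 := by
  have h1 : (Z.card : ℤ) ≤ ∑ a ∈ Z, o a := by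
    have := Finset.sum_le_sum ho
    simpa using this
  have h2 : Z.card ≤ T.card := by
    rw [hsum] at h1; exact_mod_cast h1
  have hT : T = Z := Finset.eq_of_subset_of_card_le hTZ h2
  refine ⟨hT, ?_⟩
  have h3 : ∑ a ∈ Z, (o a - 1) = 0 := by
    rw [Finset.sum_sub_distrib, hsum, hT]; simp
  have h4 := (Finset.sum_eq_zero_iff_of_nonneg (fun a ha => by have := ho a ha; omega)).mp h3
  intro a ha
  have := h4 a ha
  omega

/-- Local structure of the fibres of `f` near the fibre over `0`. -/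
theorem fibre_structure' {f : F} (hf : Transcendental ℂ f) (c : Place ℂ F → Chart F)
    (hc : ∀ P ∈ zeros ℂ f, (c P).pt 0 = P) (ρ : Place ℂ F → ℝ)
    (hρ : ∀ P ∈ zeros ℂ f, 0 < ρ P ∧ ρ P ≤ (c P).r) :
    ∃ ε > 0, ∀ w : ℂ, w ≠ 0 → ‖w‖ < ε →
      ∃ S : Place ℂ F → Finset ℂ,
        (∀ P ∈ zeros ℂ f, ((S P).card : ℤ) = P.ord f ∧ ∀ τ ∈ S P, ‖τ‖ < ρ P) ∧
        (∀ Q : Place ℂ F, Q ∈ zeros ℂ (f - algebraMap ℂ F w) ↔
          ∃ P ∈ zeros ℂ f, ∃ τ ∈ S P, Q = (c P).pt τ) ∧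
        (∀ P ∈ zeros ℂ f, ∀ P' ∈ zeros ℂ f, ∀ τ ∈ S P, ∀ τ' ∈ S P',
          (c P).pt τ = (c P').pt τ' → P = P' ∧ τ = τ') ∧
        (∀ Q ∈ zeros ℂ (f - algebraMap ℂ F w), Q.ord (f - algebraMap ℂ F w) = 1) := by
  classical
  set Z := zeros ℂ f with hZ
  have hf0 : f ≠ 0 := fun h => hf (h ▸ isAlgebraic_zero)
  -- Step 1: a good radius
  have hA : ∀ P ∈ Z, ∀ᶠ δ in 𝓝[>] (0 : ℝ), δ ≤ ρ P ∧ ∀ s : ℂ, ‖s‖ < δ → OrdGE ((c P).pt s) 0 f := by
    intro P hP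
    have hreg0 : OrdGE ((c P).pt 0) 0 f := by
      rw [hc P hP]; exact Or.inr (le_of_lt (mem_zeros.mp hP))
    obtain ⟨δ₁, hδ₁, hb⟩ := Metric.eventually_nhds_iff.mp ((c P).eventually_regular (c P).zero_mem hreg0)
    apply eventually_small
    refine ⟨min δ₁ (ρ P), lt_min hδ₁ (hρ P hP).1, fun δ _ hδ => ⟨hδ.trans (min_le_right _ _), ?_⟩⟩
    intro s hs
    exact hb (by simpa using lt_of_lt_of_le hs (hδ.trans (min_le_left _ _)))
  have hB : ∀ P ∈ Z, ∀ P' ∈ Z, ∀ᶠ δ in 𝓝[>] (0 : ℝ), P ≠ P' →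
      ∀ s s' : ℂ, ‖s‖ < δ → ‖s'‖ < δ → (c P).pt s ≠ (c P').pt s' := by
    intro P hP P' hP'
    by_cases hne : P = P'
    · exact Eventually.of_forall fun δ h => absurd hne h
    obtain ⟨δ₁, hδ₁, hb⟩ := Chart.exists_disjoint (c P) (c P') (by rw [hc P hP, hc P' hP']; exact hne)
    apply eventually_small
    exact ⟨δ₁, hδ₁, fun δ _ hδ _ s s' hs hs' => hb s s' (lt_of_lt_of_le hs hδ) (lt_of_lt_of_le hs' hδ)⟩
  have hAB : ∀ᶠ δ in 𝓝[>] (0 : ℝ), 0 < δ ∧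
      (∀ P ∈ Z, δ ≤ ρ P ∧ ∀ s : ℂ, ‖s‖ < δ → OrdGE ((c P).pt s) 0 f) ∧
      (∀ P ∈ Z, ∀ P' ∈ Z, P ≠ P' →
        ∀ s s' : ℂ, ‖s‖ < δ → ‖s'‖ < δ → (c P).pt s ≠ (c P').pt s') := by
    refine (eventually_mem_nhdsWithin).and (((Finset.eventually_all Z).mpr hA).and ?_)
    exact (Finset.eventually_all Z).mpr fun P hP => (Finset.eventually_all Z).mpr (hB P hP)
  obtain ⟨δ, hδ0, hδA, hδB⟩ := hAB.exists
  -- Step 2: e-fold lemma in each chart
  have hE : ∀ P ∈ Z, ∀ᶠ ε in 𝓝[>] (0 : ℝ), ∀ w : ℂ, w ≠ 0 → ‖w‖ < ε →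
      ∃ S : Finset ℂ, S.card = (P.ord f).toNat ∧
        ∀ τ ∈ S, ‖τ‖ < δ ∧ val ((c P).pt τ) f = w := by
    intro P hP
    have hpos : 0 < P.ord f := mem_zeros.mp hP
    have hreg0 : OrdGE ((c P).pt 0) 0 f := by
      rw [hc P hP]; exact Or.inr hpos.le
    have han := (c P).analytic f 0 (c P).zero_mem hreg0
    have hord := (c P).order f hf0 0 (c P).zero_mem (by rw [hc P hP]; exact hpos.le)
    rw [hc P hP] at hord
    obtain ⟨ε₁, hε₁, hb⟩ := exists_finset_card_eq_order han hord (by omega) δ hδ0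
    apply eventually_small
    exact ⟨ε₁, hε₁, fun ε _ hε w hw hwε => hb w hw (lt_of_lt_of_le hwε hε)⟩
  obtain ⟨ε, hε0, hεE⟩ := ((eventually_mem_nhdsWithin).and ((Finset.eventually_all Z).mpr hE)).exists
  refine ⟨ε, hε0, fun w hw hwε => ?_⟩
  -- Step 3
  have hch : ∀ P : Place ℂ F, ∃ S : Finset ℂ, P ∈ Z → (S.card = (P.ord f).toNat ∧
        ∀ τ ∈ S, ‖τ‖ < δ ∧ val ((c P).pt τ) f = w) := by
    intro P
    by_cases hP : P ∈ Z
    · obtain ⟨S, hS⟩ := hεE P hP w hw hwε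
      exact ⟨S, fun _ => hS⟩
    · exact ⟨∅, fun h => absurd h hP⟩
  choose S hS using hch
  have hfw : Transcendental ℂ (f - algebraMap ℂ F w) :=
    Fermat.Agent.S24.FF.transcendental_sub_algebraMap ℂ hf w
  have hfw0 : f - algebraMap ℂ F w ≠ 0 := fun h => hfw (h ▸ isAlgebraic_zero)
  have hinj : ∀ P ∈ Z, ∀ P' ∈ Z, ∀ τ ∈ S P, ∀ τ' ∈ S P',
      (c P).pt τ = (c P').pt τ' → P = P' ∧ τ = τ' := by
    intro P hP P' hP' τ hτ τ' hτ' heq
    have h1 := ((hS P hP).2 τ hτ).1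
    have h2 := ((hS P' hP').2 τ' hτ').1
    by_cases hne : P = P'
    · subst hne
      refine ⟨rfl, (c P).injOn ?_ ?_ heq⟩
      · simpa using lt_of_lt_of_le h1 ((hδA P hP).1.trans (hρ P hP).2)
      · simpa using lt_of_lt_of_le h2 ((hδA P hP).1.trans (hρ P hP).2)
    · exact absurd heq (hδB P hP P' hP' hne τ τ' h1 h2)
  set T : Finset (Place ℂ F) := Z.biUnion fun P => (S P).image (c P).pt with hT
  have hTsub : T ⊆ zeros ℂ (f - algebraMap ℂ F w) := by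
    intro Q hQ
    rw [hT, Finset.mem_biUnion] at hQ
    obtain ⟨P, hP, hQ⟩ := hQ
    rw [Finset.mem_image] at hQ
    obtain ⟨τ, hτ, rfl⟩ := hQ
    obtain ⟨h1, h2⟩ := (hS P hP).2 τ hτ
    have h3 := val_spec ((hδA P hP).2 τ h1)
    rw [h2] at h3
    rw [mem_zeros]
    have := h3.resolve_left hfw0
    omega
  have hTcard : (T.card : ℤ) = ∑ P ∈ Z, P.ord f := by
    rw [hT, Finset.card_biUnion]
    · push_cast
      refine Finset.sum_congr rfl fun P hP => ?_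
      rw [Finset.card_image_of_injOn, (hS P hP).1]
      · exact Int.toNat_of_nonneg (mem_zeros.mp hP).le
      · intro τ hτ τ' hτ' heq
        exact (hinj P hP P hP τ hτ τ' hτ' heq).2
    · intro P hP P' hP' hne
      show Disjoint ((S P).image (c P).pt) ((S P').image (c P').pt)
      rw [Finset.disjoint_left]
      intro Q hQ hQ'
      rw [Finset.mem_image] at hQ hQ'
      obtain ⟨τ, hτ, rfl⟩ := hQ
      obtain ⟨τ', hτ', heq⟩ := hQ'
      exact hne (hinj P hP P' hP' τ hτ τ' hτ' heq.symm).1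
  have hsum : ∑ Q ∈ zeros ℂ (f - algebraMap ℂ F w), Q.ord (f - algebraMap ℂ F w) = T.card := by
    rw [hTcard, sum_ord_zeros hfw, sum_ord_zeros hf,
      Fermat.Agent.S24.FF.finrank_congr ℂ (Fermat.Agent.S24.FF.adjoin_simple_sub_algebraMap ℂ f w)]
  obtain ⟨hTeq, hone⟩ := eq_of_card_eq_sum T _ (fun Q => Q.ord (f - algebraMap ℂ F w)) hTsub
    (fun Q hQ => by have := mem_zeros.mp hQ; omega) hsum
  refine ⟨S, fun P hP => ⟨?_, fun τ hτ => lt_of_lt_of_le ((hS P hP).2 τ hτ).1 (hδA P hP).1⟩, ?_,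
    hinj, hone⟩
  · rw [(hS P hP).1]; exact Int.toNat_of_nonneg (mem_zeros.mp hP).le
  · intro Q
    rw [← hTeq, hT, Finset.mem_biUnion]
    constructor
    · rintro ⟨P, hP, hQ⟩
      rw [Finset.mem_image] at hQ
      obtain ⟨τ, hτ, rfl⟩ := hQ
      exact ⟨P, hP, τ, hτ, rfl⟩
    · rintro ⟨P, hP, τ, hτ, rfl⟩
      exact ⟨P, hP, Finset.mem_image_of_mem _ hτ⟩

end Fermat.Agent.S27
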