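import Fermat.Agent.S27.B.Abel

/-! # S27 / B / Triple  (TASK S27/B3c): proof of the triple lemma. -/

set_option autoImplicit false

namespace Fermat.Agent.S27

namespace Triple

open AlgebraicCurve Fermat.Agent.S26 IntermediateField

section Alg

variable {K F : Type*} [Field K] [Field F] [Algebra K F]

theorem sumDiv_apply {ι : Type*} [Fintype ι] (R : ι → Place K F) (v : Place K F) :
    sumDiv R v = ∑ i, (Finsupp.single (R i) (1 : ℤ)) v := by
  unfold sumDiv
  rw [Finsupp.finsetSum_apply]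

theorem sumDiv_nonneg {ι : Type*} [Fintype ι] (R : ι → Place K F) (v : Place K F) :
    0 ≤ sumDiv R v := by
  classical
  rw [sumDiv_apply]
  refine Finset.sum_nonneg fun i _ => ?_
  rw [Finsupp.single_apply]
  split_ifs <;> simp

theorem sumDiv_of_injective {ι : Type*} [Fintype ι] {R : ι → Place K F}
    (hR : Function.Injective R) (i : ι) : sumDiv R (R i) = 1 := by
  classical
  rw [sumDiv_apply, Finset.sum_eq_single i]
  · simp
  · intro j _ hj
    rw [Finsupp.single_apply, if_neg (fun h => hj (hR h))]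
  · intro h
    exact absurd (Finset.mem_univ i) h

theorem sumDiv_of_ne {ι : Type*} [Fintype ι] (R : ι → Place K F) (v : Place K F)
    (h : ∀ i, R i ≠ v) : sumDiv R v = 0 := by
  classical
  rw [sumDiv_apply]
  refine Finset.sum_eq_zero fun i _ => ?_
  rw [Finsupp.single_apply, if_neg (h i)]

theorem sumDiv_sum {ι κ : Type*} [Fintype ι] [Fintype κ] (R : ι ⊕ κ → Place K F) :
    sumDiv R = sumDiv (fun i => R (Sum.inl i)) + sumDiv (fun j => R (Sum.inr j)) := by
  unfold sumDiv
  rw [Fintype.sum_sum_type]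

theorem exists_pos_le {ι : Type*} [Finite ι] (f : ι → ℝ) (hf : ∀ i, 0 < f i) :
    ∃ δ > 0, ∀ i, δ ≤ f i := by
  rcases isEmpty_or_nonempty ι with h | h
  · exact ⟨1, one_pos, fun i => (h.false i).elim⟩
  · obtain ⟨i0, hi0⟩ := Finite.exists_min f
    exact ⟨f i0, hf i0, hi0⟩

variable [IsAlgClosed K] [CharZero K] [FF1 K F]

/-- a section of `L(D)` is regular where `D` vanishes -/
theorem ordGE_of_mem_LSpace {D : Divisor K F} {f : F} (hf : f ∈ LSpace D) {v : Place K F}
    (hv : D v = 0) : OrdGE v 0 f := by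
  rcases hf with rfl | hf
  · exact OrdGE.zero _ _
  · right
    have := hf v
    omega

/-- a nonzero section of `L(D)` vanishing at `deg D` distinct places outside `supp D` has divisor `∑ P - D`. -/
theorem divisorOf_eq {ι : Type*} [Fintype ι] {D : Divisor K F} {P : ι → Place K F}
    (hP : Function.Injective P) (hD0 : ∀ q, D (P q) = 0)
    (hdeg : Divisor.degree D = Fintype.card ι) {f : F} (hf0 : f ≠ 0) (hf : f ∈ LSpace D)
    (hz : ∀ q, val (P q) f = 0) : divisorOf f = sumDiv P - D := by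
  apply divisorOf_eq_of_mem_LSpace (by rw [degree_sumDiv, hdeg]) hf0
  right
  intro v
  have h1 := (hf.resolve_left hf0) v
  rw [Finsupp.sub_apply]
  by_cases hv : ∃ q, P q = v
  · obtain ⟨q, rfl⟩ := hv
    rw [sumDiv_of_injective hP, hD0]
    have h2 := (val_eq_zero_iff (ordGE_of_mem_LSpace hf (hD0 q))).1 (hz q)
    have h3 := (ordGE_iff hf0).1 h2
    omega
  · push Not at hv
    rw [sumDiv_of_ne P v hv]
    omega

/-- the residue of `1/f` at a simple zero -/
theorem val_div_simple {v : Place K F} {t : F} (ht : v.ord t = 1) {f : F} (hf : OrdGE v 1 f)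
    (hd : val v (dd (K := K) t f) ≠ 0) :
    f ≠ 0 ∧ v.ord f = 1 ∧ val v (t / f) = (val v (dd (K := K) t f))⁻¹ := by
  have hord : v.ord f = 1 := (val_dd_ne_zero_iff ht hf).1 hd
  have hf0 : f ≠ 0 := by
    rintro rfl
    simp at hord
  have ht0 : t ≠ 0 := by
    rintro rfl
    simp at ht
  refine ⟨hf0, hord, ?_⟩
  have hreg : OrdGE v 0 f := hf.mono (by norm_num)
  have hval0 : val v f = 0 := (val_eq_zero_iff hreg).2 hf
  have h2 := taylor_two ht hreg
  rw [hval0, map_zero, sub_zero] at h2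
  have htinv : OrdGE v (-1) t⁻¹ := by
    right
    rw [v.ord_inv, ht]
  have h3 : OrdGE v 1 (f / t - algebraMap K F (val v (dd (K := K) t f))) := by
    have h4 := h2.mul htinv
    have e : (f - algebraMap K F (val v (dd (K := K) t f)) * t) * t⁻¹ =
        f / t - algebraMap K F (val v (dd (K := K) t f)) := by
      field_simp
    rw [e] at h4
    exact h4.mono (by norm_num)
  have h5 : val v (f / t) = val v (dd (K := K) t f) := val_eq_of h3
  have h6 : v.ord (f / t) = 0 := by
    rw [Fermat.Agent.S24.FF.ord_div v hf0 ht0, hord, ht]; norm_num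
  have h7 := val_inv (div_ne_zero hf0 ht0) h6
  rw [inv_div, h5] at h7
  exact h7

/-- **the residue relation** (hypothesis (c) of `lemmaM`). -/
theorem residue_relation {ι : Type*} [Fintype ι] {x ω : F} (hx : Transcendental K x)
    (hω : ω ∈ Omega x (0 : Divisor K F)) {D : Divisor K F} {P : ι → Place K F}
    (hP : Function.Injective P) (t : ι → F) (ht : ∀ q, (P q).ord (t q) = 1)
    (hD0 : ∀ q, D (P q) = 0) (hdeg : Divisor.degree D = Fintype.card ι) {fb fh : F}
    (hfb : fb ∈ LSpace D) (hfh : fh ∈ LSpace D) (hz : ∀ q, val (P q) fb = 0)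
    (hnz : ∀ q, val (P q) (dd (K := K) (t q) fb) ≠ 0) :
    ∑ q, val (P q) fh / val (P q) (dd (K := K) (t q) fb) *
      val (P q) (ω * dd (K := K) (t q) x) = 0 := by
  classical
  by_cases hfb0 : fb = 0
  · refine Finset.sum_eq_zero fun q _ => ?_
    exact absurd (by rw [hfb0, map_zero]; exact (val_eq_zero_iff (OrdGE.zero _ _)).2 (OrdGE.zero _ _))
      (hnz q)
  have hdiv := divisorOf_eq hP hD0 hdeg hfb0 hfb hz
  have hordfb : ∀ v, v.ord fb = sumDiv P v - D v := by
    intro v
    rw [← divisorOf_apply fb v, hdiv, Finsupp.sub_apply]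
  let tt : Place K F → F := fun v => if h : ∃ q, P q = v then t h.choose else 0
  have htt : ∀ q, tt (P q) = t q := by
    intro q
    have h : ∃ q', P q' = P q := ⟨q, rfl⟩
    simp only [tt, dif_pos h]
    rw [hP h.choose_spec]
  have key := sum_residues_simple hx (fh / fb * ω) (Finset.univ.image P) tt
    (by
      intro v hv
      obtain ⟨q, -, rfl⟩ := Finset.mem_image.1 hv
      rw [htt]; exact ht q)
    (by
      intro v hv
      obtain ⟨q, -, rfl⟩ := Finset.mem_image.1 hv
      rw [htt]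
      have h1 : OrdGE (P q) 0 fh := ordGE_of_mem_LSpace hfh (hD0 q)
      have h2 : OrdGE (P q) 0 (ω * dd (K := K) (t q) x) := by
        simpa using ordGE_of_mem_Omega hx hω (ht q)
      have h3 : OrdGE (P q) (-1) fb⁻¹ := by
        right
        rw [(P q).ord_inv, hordfb, sumDiv_of_injective hP, hD0]; norm_num
      have h4 := (h1.mul h3).mul h2
      have e : fh * fb⁻¹ * (ω * dd (K := K) (t q) x) = fh / fb * ω * dd (K := K) (t q) x := by
        rw [div_eq_mul_inv]; ring
      rw [e] at h4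
      exact h4.mono (by norm_num))
    (by
      intro v hv
      have hv' : ∀ q, P q ≠ v := by
        intro q hq
        exact hv (Finset.mem_image.2 ⟨q, Finset.mem_univ _, hq⟩)
      by_cases hfh0 : fh = 0
      · left; simp [hfh0]
      by_cases hω0 : ω = 0
      · left; simp [hω0]
      right
      have h1 := (hfh.resolve_left hfh0) v
      have h2 := (hω.resolve_left hω0) v
      rw [v.ord_mul (div_ne_zero hfh0 hfb0) hω0, Fermat.Agent.S24.FF.ord_div v hfh0 hfb0, hordfb,
        sumDiv_of_ne P v hv']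
      simp only [Finsupp.coe_zero, Pi.zero_apply] at h2
      omega)
  rw [Finset.sum_image (fun a _ b _ h => hP h)] at key
  rw [← key]
  refine Finset.sum_congr rfl fun q _ => ?_
  rw [htt]
  have hreg : OrdGE (P q) 0 fb := ordGE_of_mem_LSpace hfb (hD0 q)
  obtain ⟨-, hord1, hv⟩ := val_div_simple (ht q) ((val_eq_zero_iff hreg).1 (hz q)) (hnz q)
  have ht0 : t q ≠ 0 := by
    intro h0
    have := ht q
    rw [h0] at this
    simp at this
  have h1 : OrdGE (P q) 0 fh := ordGE_of_mem_LSpace hfh (hD0 q)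
  have h2 : OrdGE (P q) 0 (ω * dd (K := K) (t q) x) := by
    simpa using ordGE_of_mem_Omega hx hω (ht q)
  have h3 : OrdGE (P q) 0 (t q / fb) := by
    right
    rw [Fermat.Agent.S24.FF.ord_div _ ht0 hfb0, ht q, hord1]; norm_num
  have e : t q * (fh / fb * ω * dd (K := K) (t q) x) =
      (t q / fb) * fh * (ω * dd (K := K) (t q) x) := by
    field_simp
  rw [e, val_mul (h3.mul h1 |>.mono (by norm_num)) h2, val_mul h3 h1, hv]
  field_simp

/-- hypothesis (b) of `lemmaM` -/
theorem multiple_of_vanish {I : Type*} [Fintype I] {x : F} (hx : Transcendental K x)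
    (Qc : I ⊕ Fin (genusFF K F) → Place K F) (hinj : Function.Injective Qc)
    (hgood : IsGood x fun i => Qc (Sum.inr i)) {b₀ : F} (hb₀ : b₀ ≠ 0)
    (hord : ∀ q, (Qc q).ord b₀ = 1) {D : Divisor K F} (hD : ∀ v, D v = sumDiv Qc v - v.ord b₀)
    {fh : F} (hfh : fh ∈ LSpace D) (hz : ∀ i, val (Qc (Sum.inl i)) fh = 0) :
    ∃ c : K, fh = c • b₀ := by
  classical
  by_cases hfh0 : fh = 0
  · exact ⟨0, by simp [hfh0]⟩
  have hD0 : ∀ q, D (Qc q) = 0 := by
    intro q
    rw [hD, sumDiv_of_injective hinj, hord]; norm_num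
  have hmem : fh / b₀ ∈ LSpace (sumDiv fun i => Qc (Sum.inr i)) := by
    right
    intro v
    rw [Fermat.Agent.S24.FF.ord_div v hfh0 hb₀]
    have h1 := (hfh.resolve_left hfh0) v
    have h0 := sumDiv_nonneg (fun i => Qc (Sum.inr i)) v
    by_cases hv : ∃ i, Qc (Sum.inl i) = v
    · obtain ⟨i, rfl⟩ := hv
      have h2 := (val_eq_zero_iff (ordGE_of_mem_LSpace hfh (hD0 _))).1 (hz i)
      have h3 := (ordGE_iff hfh0).1 h2
      rw [hord]
      omega
    · push Not at hv
      have h2 := sumDiv_of_ne (fun i => Qc (Sum.inl i)) v hv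
      rw [hD, sumDiv_sum, Finsupp.add_apply, h2] at h1
      omega
  obtain ⟨c, hc⟩ := mem_range_of_mem_LSpace_of_isGood hx hgood hmem
  refine ⟨c, ?_⟩
  rw [Algebra.smul_def, hc]
  field_simp

end Alg

section Main

variable {F : Type*} [Field F] [Algebra ℂ F] [FF1 ℂ F]

/-- choice of the radius -/
theorem exists_radius {ι : Type*} [Finite ι] (C : ι → Chart F)
    (hinj : Function.Injective fun q => (C q).pt 0) (D : Divisor ℂ F)
    (hD : ∀ q, D ((C q).pt 0) = 0) :
    ∃ r > 0, (∀ q, r ≤ (C q).r) ∧ (∀ q s, ‖s‖ < r → D ((C q).pt s) = 0) ∧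
      ∀ q q' s s', q ≠ q' → ‖s‖ < r → ‖s'‖ < r → (C q).pt s ≠ (C q').pt s' := by
  classical
  obtain ⟨r1, hr1, h1⟩ := exists_pos_le (fun q => (C q).r) (fun q => (C q).r_pos)
  have hav : ∀ p : ι × D.support, ∃ δ > 0, ∀ s : ℂ, ‖s‖ < δ → (C p.1).pt s ≠ p.2.1 := by
    intro p
    apply Chart.exists_avoid
    intro h
    have := Finsupp.mem_support_iff.1 p.2.2
    rw [← h] at this
    exact this (hD p.1)
  choose δ2 hδ2 h2 using hav
  obtain ⟨r2, hr2, h2'⟩ := exists_pos_le δ2 hδ2
  have hdj : ∀ p : {p : ι × ι // p.1 ≠ p.2}, ∃ δ > 0, ∀ s s' : ℂ, ‖s‖ < δ → ‖s'‖ < δ →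
      (C p.1.1).pt s ≠ (C p.1.2).pt s' := by
    intro p
    apply Chart.exists_disjoint
    intro h
    exact p.2 (hinj h)
  choose δ3 hδ3 h3 using hdj
  obtain ⟨r3, hr3, h3'⟩ := exists_pos_le δ3 hδ3
  refine ⟨min r1 (min r2 r3), lt_min hr1 (lt_min hr2 hr3), fun q => (min_le_left _ _).trans (h1 q),
    ?_, ?_⟩
  · intro q s hs
    by_contra hne
    have hmem : (C q).pt s ∈ D.support := Finsupp.mem_support_iff.2 hne
    refine h2 (q, ⟨_, hmem⟩) s (lt_of_lt_of_le hs ?_) rfl
    exact ((min_le_right _ _).trans (min_le_left _ _)).trans (h2' _)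
  · intro q q' s s' hqq hs hs'
    have hle : min r1 (min r2 r3) ≤ δ3 ⟨(q, q'), hqq⟩ :=
      ((min_le_right _ _).trans (min_le_right _ _)).trans (h3' _)
    exact h3 ⟨(q, q'), hqq⟩ s s' (lt_of_lt_of_le hs hle) (lt_of_lt_of_le hs' hle)

theorem ord_t_zero (c : Chart F) : (c.pt 0).ord c.t = 1 := by
  have := c.ord_t 0 c.zero_mem
  simpa using this

theorem fun_eq_zero_of_li {ι V : Type*} [Fintype ι] [AddCommGroup V] [Module ℂ V] {w : ι → V}
    (hw : LinearIndependent ℂ w) {a : ι → ℂ} (h : ∑ j, a j • w j = 0) : a = 0 :=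
  funext fun j => Fintype.linearIndependent_iff.1 hw a h j

/-- hypothesis (d) of `lemmaM` -/
theorem separate (B : HolBasis F) (C : Fin (genusFF ℂ F) → Chart F)
    (hgood : IsGood B.x fun i => (C i).pt 0) (c : Fin (genusFF ℂ F) → ℂ)
    (h : ∀ j, ∑ q, (C q).form B.x (B.ω j) 0 * c q = 0) : c = 0 := by
  classical
  let A : Matrix (Fin (genusFF ℂ F)) (Fin (genusFF ℂ F)) ℂ := fun j q => (C q).form B.x (B.ω j) 0
  have hzero : ∀ a : Fin (genusFF ℂ F) → ℂ, Matrix.vecMul a A = 0 → a = 0 := by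
    intro a ha
    have hmem : ∑ j, a j • B.ω j ∈ Omega B.x (0 : Divisor ℂ F) :=
      Submodule.sum_mem _ fun j _ => Submodule.smul_mem _ _ (B.mem j)
    have hω : ∑ j, a j • B.ω j = 0 := by
      refine eq_zero_of_val_eq_zero_of_isGood B.hx hgood (fun i => (C i).t)
        (fun i => ord_t_zero (C i)) hmem fun q => ?_
      have hreg : ∀ j, OrdGE ((C q).pt 0) 0 (B.ω j * dd (K := ℂ) (C q).t B.x) := by
        intro j
        simpa using ordGE_of_mem_Omega B.hx (B.mem j) (ord_t_zero (C q))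
      have e : (∑ j, a j • B.ω j) * dd (K := ℂ) (C q).t B.x =
          ∑ j, a j • (B.ω j * dd (K := ℂ) (C q).t B.x) := by
        rw [Finset.sum_mul]
        exact Finset.sum_congr rfl fun j _ => smul_mul_assoc _ _ _
      rw [e, val_sum _ _ (fun j _ => (hreg j).smul _)]
      have h2 : ∑ j, a j * A j q = 0 := congrFun ha q
      refine Eq.trans ?_ h2
      exact Finset.sum_congr rfl fun j _ => val_smul _ _
    exact fun_eq_zero_of_li B.li hω
  have hvec : Function.Injective (fun v => Matrix.vecMul v A) := by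
    intro a a' haa
    have : Matrix.vecMul (a - a') A = 0 := by
      rw [Matrix.sub_vecMul]; exact sub_eq_zero.2 haa
    exact sub_eq_zero.1 (hzero _ this)
  have hunit : IsUnit A := Matrix.vecMul_injective_iff_isUnit.1 hvec
  have hmul := Matrix.mulVec_injective_iff_isUnit.2 hunit
  apply hmul
  rw [Matrix.mulVec_zero]
  funext j
  exact h j

theorem ord_t_sub (c : Chart F) {s : ℂ} (hs : ‖s‖ < c.r) :
    (c.pt s).ord (c.t - algebraMap ℂ F s) = 1 :=
  c.ord_t s (by simpa using hs)

theorem triple_aux {I : Type*} [Fintype I] [DecidableEq I] (B : HolBasis F)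
    (hI : Fintype.card I = 2 * genusFF ℂ F) (C : I ⊕ Fin (genusFF ℂ F) → Chart F)
    (hgood : IsGood B.x fun i => (C (Sum.inr i)).pt 0)
    (hinj : Function.Injective fun q => (C q).pt 0) :
    ∃ ε > 0, (∀ q, ε ≤ (C q).r) ∧ ∀ s : I ⊕ Fin (genusFF ℂ F) → ℂ, (∀ q, ‖s q‖ < ε) →
      ∑ q, (C q).abel B (s q) = 0 → ∑ q, pq ((C q).pt (s q)) ((C q).pt 0) = 0 := by
  classical
  let Qc : I ⊕ Fin (genusFF ℂ F) → Place ℂ F := fun q => (C q).pt 0
  have hcardQ : Fintype.card (I ⊕ Fin (genusFF ℂ F)) = 3 * genusFF ℂ F := by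
    rw [Fintype.card_sum, hI, Fintype.card_fin]; ring
  obtain ⟨b₀, hb₀, hord, -⟩ := exists_section_simple_zeros Qc hinj (by omega)
  let D : Divisor ℂ F := sumDiv Qc - divisorOf b₀
  have hDv : ∀ v, D v = sumDiv Qc v - v.ord b₀ := by
    intro v
    rw [Finsupp.sub_apply, divisorOf_apply]
  have hD0 : ∀ q, D ((C q).pt 0) = 0 := by
    intro q
    rw [hDv, sumDiv_of_injective (R := Qc) hinj q, hord]; norm_num
  have hdeg : Divisor.degree D = Fintype.card (I ⊕ Fin (genusFF ℂ F)) := by
    rw [map_sub, degree_sumDiv, degree_divisorOf, sub_zero]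
  have hb₀mem : b₀ ∈ LSpace D := by
    right
    intro v
    rw [hDv]
    have := sumDiv_nonneg Qc v
    omega
  have hfin : Module.finrank ℂ (LSpace D) = Fintype.card I + 1 := by
    have h := finrank_LSpace_of_degree (D := D) (by rw [hdeg, hcardQ]; push_cast; omega)
    rw [hdeg, hcardQ] at h
    push_cast at h
    omega
  obtain ⟨r, hr, hrle, hrD, hrdisj⟩ := exists_radius C hinj D hD0
  have : Module.Finite ℂ (LSpace D) := Module.finite_of_finrank_pos (by omega)
  let βb := Module.finBasisOfFinrankEq ℂ (LSpace D) hfin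
  let fb : (Fin (Fintype.card I + 1) → ℂ) → F := fun b => ∑ m, b m • (βb m : F)
  have hfb_eq : ∀ b, fb b = ((βb.equivFun.symm b : LSpace D) : F) := by
    intro b
    rw [Module.Basis.equivFun_symm_apply]
    simp [fb]
  have hfb_mem : ∀ b, fb b ∈ LSpace D := by
    intro b
    rw [hfb_eq]
    exact Subtype.property _
  have hfb_inj : ∀ b, fb b = 0 → b = 0 := by
    intro b hb
    rw [hfb_eq] at hb
    have : βb.equivFun.symm b = 0 := Subtype.ext hb
    exact (LinearEquiv.map_eq_zero_iff _).1 this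
  -- regularity along the charts
  have hreg : ∀ (f : F), f ∈ LSpace D → ∀ q s, ‖s‖ < r → OrdGE ((C q).pt s) 0 f := by
    intro f hf q s hs
    exact ordGE_of_mem_LSpace hf (hrD q s hs)
  have hball : ∀ q s, ‖s‖ < r → s ∈ Metric.ball (0 : ℂ) (C q).r := by
    intro q s hs
    rw [mem_ball_zero_iff]
    exact lt_of_lt_of_le hs (hrle q)
  let β : I ⊕ Fin (genusFF ℂ F) → Fin (Fintype.card I + 1) → ℂ → ℂ :=
    fun q m s => val ((C q).pt s) (βb m : F)
  have hβ : ∀ q m, AnalyticOnNhd ℂ (β q m) (Metric.ball 0 r) := by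
    intro q m s hs
    rw [mem_ball_zero_iff] at hs
    exact (C q).analytic _ s (hball q s hs) (hreg _ (Subtype.property _) q s hs)
  have hβd : ∀ q m s, ‖s‖ < r → deriv (β q m) s = val ((C q).pt s) (dd (K := ℂ) (C q).t (βb m : F)) := by
    intro q m s hs
    exact ((C q).hasDerivAt (hball q s hs) (hreg _ (Subtype.property _) q s hs)).deriv
  have hev : ∀ b q s, ‖s‖ < r → ∑ m, b m * β q m s = val ((C q).pt s) (fb b) := by
    intro b q s hs
    rw [val_sum _ _ (fun m _ => (hreg _ (Subtype.property _) q s hs).smul _)]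
    exact Finset.sum_congr rfl fun m _ => (val_smul _ _).symm
  have hev' : ∀ b q s, ‖s‖ < r →
      ∑ m, b m * deriv (β q m) s = val ((C q).pt s) (dd (K := ℂ) (C q).t (fb b)) := by
    intro b q s hs
    have e : dd (K := ℂ) (C q).t (fb b) = ∑ m, b m • dd (K := ℂ) (C q).t (βb m : F) := by
      simp only [fb, map_sum, Derivation.map_smul]
    have hregd : ∀ m, OrdGE ((C q).pt s) 0 (dd (K := ℂ) (C q).t (βb m : F)) := by
      intro m
      have := OrdGE.dd (ord_t_sub (C q) (lt_of_lt_of_le hs (hrle q)))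
        (hreg _ (Subtype.property (βb m)) q s hs)
      rwa [dd_sub_algebraMap] at this
    rw [e, val_sum _ _ (fun m _ => (hregd m).smul _)]
    refine Finset.sum_congr rfl fun m _ => ?_
    rw [hβd q m s hs, val_smul]
  let b0v : Fin (Fintype.card I + 1) → ℂ := βb.equivFun ⟨b₀, hb₀mem⟩
  have hb0v : fb b0v = b₀ := by
    rw [hfb_eq]; simp [b0v]
  have h0r : ‖(0 : ℂ)‖ < r := by simpa using hr
  have hb₀1 : ∀ q, OrdGE ((C q).pt 0) 1 b₀ := fun q => Or.inr (hord q).ge
  have hinjs : ∀ s : I ⊕ Fin (genusFF ℂ F) → ℂ, (∀ q, ‖s q‖ < r) →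
      Function.Injective fun q => (C q).pt (s q) := by
    intro s hs q q' h
    by_contra hne
    exact hrdisj q q' _ _ hne (hs q) (hs q') h
  obtain ⟨ε₀, hε₀, hmain⟩ := lemmaM (I := I) (J := Fin (genusFF ℂ F))
    (M := Fin (Fintype.card I + 1)) (by simp) r hr β hβ
    (fun j q => (C q).form B.x (B.ω j)) (fun j q => (C q).prim B.x (B.ω j))
    (fun j q => ((C q).form_analytic B.hx (B.mem j)).mono (Metric.ball_subset_ball (hrle q)))
    (fun j q s hs => (C q).prim_hasDerivAt B.hx (B.mem j) (Metric.ball_subset_ball (hrle q) hs))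
    (fun j q => (C q).prim_zero _ _)
    b0v
    (by
      intro q
      rw [hev _ _ _ h0r, hb0v]
      exact (val_eq_zero_iff ((hb₀1 q).mono (by norm_num))).2 (hb₀1 q))
    (by
      intro q
      rw [hev' _ _ _ h0r, hb0v]
      exact (val_dd_ne_zero_iff (ord_t_zero _) (hb₀1 q)).2 (hord q))
    (by
      intro h hz
      obtain ⟨c, hc⟩ := multiple_of_vanish B.hx Qc hinj hgood hb₀ hord hDv (hfb_mem h)
        (fun i => by rw [← hev h _ _ h0r]; exact hz i)
      refine ⟨c, ?_⟩
      have h1 : βb.equivFun.symm h = c • (⟨b₀, hb₀mem⟩ : LSpace D) := by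
        apply Subtype.ext
        rw [← hfb_eq, hc]
        rfl
      have h2 := congrArg βb.equivFun h1
      rw [LinearEquiv.apply_symm_apply, map_smul] at h2
      exact h2)
    (by
      intro s hs b h hz hnz j
      have key := residue_relation B.hx (B.mem j) (hinjs s hs)
        (fun q => (C q).t - algebraMap ℂ F (s q))
        (fun q => ord_t_sub (C q) (lt_of_lt_of_le (hs q) (hrle q)))
        (fun q => hrD q _ (hs q)) hdeg (hfb_mem b) (hfb_mem h)
        (fun q => by rw [← hev b q _ (hs q)]; exact hz q)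
        (fun q => by rw [dd_sub_algebraMap, ← hev' b q _ (hs q)]; exact hnz q)
      simp only [dd_sub_algebraMap] at key
      refine Eq.trans (Finset.sum_congr rfl fun q _ => ?_) key
      rw [hev h q _ (hs q), hev' b q _ (hs q)]
      rfl)
    (separate B (fun i => C (Sum.inr i)) hgood)
  refine ⟨min ε₀ r, lt_min hε₀ hr, fun q => (min_le_right _ _).trans (hrle q), ?_⟩
  intro s hs hsum
  have hsr : ∀ q, ‖s q‖ < r := fun q => lt_of_lt_of_le (hs q) (min_le_right _ _)
  obtain ⟨b, hb0, hbz⟩ := hmain s (fun q => lt_of_lt_of_le (hs q) (min_le_left _ _)) (fun j => by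
    have := congrFun hsum j
    simpa [Finset.sum_apply, Chart.abel] using this)
  have hfb0 : fb b ≠ 0 := fun h => hb0 (hfb_inj b h)
  have hdiv := divisorOf_eq (hinjs s hsr) (fun q => hrD q _ (hsr q)) hdeg hfb0 (hfb_mem b)
    (fun q => by rw [← hev b q _ (hsr q)]; exact hbz q)
  rw [sum_pq_eq_zero_iff]
  refine ⟨fb b / b₀, div_ne_zero hfb0 hb₀, fun v => ?_⟩
  rw [Fermat.Agent.S24.FF.ord_div v hfb0 hb₀, ← divisorOf_apply (fb b), hdiv, Finsupp.sub_apply,
    Finsupp.sub_apply, hDv]
  ring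

end Main

end Triple

open AlgebraicCurve Fermat.Agent.S26 IntermediateField Triple

variable {F : Type*} [Field F] [Algebra ℂ F] [FF1 ℂ F]

/-- **The triple lemma** (only the goodness of the third tuple is used). -/
theorem triple_lemma (B : HolBasis F) (c : Fin 3 → Fin (genusFF ℂ F) → Chart F)
    (hgood : ∀ a, IsGood B.x fun i => (c a i).pt 0)
    (hinj : Function.Injective fun p : Fin 3 × Fin (genusFF ℂ F) => (c p.1 p.2).pt 0) :
    ∃ ε > 0, (∀ a i, ε ≤ (c a i).r) ∧ ∀ s : Fin 3 → Fin (genusFF ℂ F) → ℂ, (∀ a i, ‖s a i‖ < ε) →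
      ∑ a, ∑ i, (c a i).abel B (s a i) = 0 →
      ∑ a, ∑ i, pq ((c a i).pt (s a i)) ((c a i).pt 0) = 0 := by
  classical
  let idx : (Fin (genusFF ℂ F) ⊕ Fin (genusFF ℂ F)) ⊕ Fin (genusFF ℂ F) →
      Fin 3 × Fin (genusFF ℂ F) :=
    fun q => Sum.elim (Sum.elim (fun i => (0, i)) (fun i => (1, i))) (fun i => (2, i)) q
  have hidx : Function.Injective idx := by
    rintro ((i | i) | i) ((j | j) | j) h <;> simp [idx] at h ⊢ <;> exact h
  obtain ⟨ε, hε, hle, hmain⟩ := triple_aux (I := Fin (genusFF ℂ F) ⊕ Fin (genusFF ℂ F)) B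
    (by simp; ring) (fun q => c (idx q).1 (idx q).2) (hgood 2)
    (fun q q' h => hidx (hinj h))
  refine ⟨ε, hε, ?_, ?_⟩
  · intro a i
    fin_cases a
    · exact hle (Sum.inl (Sum.inl i))
    · exact hle (Sum.inl (Sum.inr i))
    · exact hle (Sum.inr i)
  · intro s hs hsum
    have := hmain (fun q => s (idx q).1 (idx q).2) (fun q => hs _ _) (by
      rw [Fintype.sum_sum_type, Fintype.sum_sum_type]
      rw [Fin.sum_univ_three] at hsum
      exact hsum)
    rw [Fintype.sum_sum_type, Fintype.sum_sum_type] at this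
    rw [Fin.sum_univ_three]
    exact this

end Fermat.Agent.S27
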